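import Fermat.Agent.DeligneSerre.Congr.Quot

/-!
# The weight one quotients at infinity modulo a prime over `l`
-/

set_option autoImplicit false
set_option linter.style.haveILetI false
set_option linter.unusedSectionVars false

noncomputable section

open UpperHalfPlane hiding I I_re I_im
open Filter Topology Complex Function FLTAgent.GoodModel FLTAgent.ModEq ModularCurve
open scoped MatrixGroups ModularForm Manifold Classical

namespace FLTAgent.DeligneSerre.Congr

variable {l : ℕ} [NeZero l]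

/-- The vector `(0, y)`. -/
def vec (y : ZMod l) : Fin 2 → ZMod l := ![0, y]

theorem vec_ne {y : ZMod l} (hy : y ≠ 0) : vec y ≠ 0 := fun h => hy (by simpa [vec] using congrFun h 1)

/-- A function invariant under translation by one. -/
theorem periodic_of_T {F : ℍ → ℂ} (h : ∀ τ : ℍ, F (ModularGroup.T • τ) = F τ) :
    Function.Periodic (F ∘ ofComplex) 1 := fun z => by
  simp only [Function.comp_apply]
  by_cases hz : 0 < z.im
  · have hsm : ModularGroup.T • ofComplex z = ofComplex (z + 1) := by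
      rw [modular_T_smul]
      ext
      simp [ofComplex_apply_of_im_pos hz, ofComplex_apply_of_im_pos
        (show 0 < (z + 1).im by simpa using hz), add_comm]
    rw [← hsm, h]
  · rw [ofComplex_apply_of_im_nonpos (not_lt.mp hz),
      ofComplex_apply_of_im_nonpos (by simpa using not_lt.mp hz)]

theorem act_T (y : ZMod l) : act l (vec y) ModularGroup.T = vec y := by
  funext i; fin_cases i <;> simp [act, vec, ModularGroup.coe_T]

theorem denom_T (τ : ℍ) : denom ModularGroup.T (τ : ℂ) = 1 := by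
  simp [denom, ModularGroup.coe_T]

theorem periodic_num (y : ZMod l) : Function.Periodic (num l (vec y) ∘ ofComplex) 1 :=
  periodic_of_T fun τ => by rw [num_smul, act_T, denom_T, one_pow, one_mul]

theorem periodic_den (y : ZMod l) : Function.Periodic (den l (vec y) ∘ ofComplex) 1 :=
  periodic_of_T fun τ => by rw [den_smul, act_T, denom_T, one_pow, one_mul]

theorem periodic_quo (y : ZMod l) : Function.Periodic (quo l (vec y) ∘ ofComplex) 1 :=
  periodic_of_T fun τ => by rw [quo_smul, act_T, denom_T, one_mul]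

theorem qp_pow_eq (τ : ℍ) (m : ℤ) :
    qp l τ ^ (m * l) = Periodic.qParam 1 (τ : ℂ) ^ m := by
  have hl : (l : ℂ) ≠ 0 := Nat.cast_ne_zero.mpr (NeZero.ne l)
  simp only [qp, Periodic.qParam, ← Complex.exp_int_mul]
  congr 1
  push_cast
  field_simp

section Series

variable (y : ZMod l)

/-- The root of unity attached to a class. -/
def omg : ℂ := ((zetaN l ^ ((y.val : ℕ) : ℤ) : ℂˣ) : ℂ)

theorem norm_omega : ‖omg y‖ = 1 := by
  rw [omg, Units.val_zpow_eq_zpow_val, norm_zpow, Complex.norm_eq_one_of_pow_eq_one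
    (by simpa using congrArg Units.val (zetaN_primitive (N := l)).pow_eq_one) (NeZero.ne l), one_zpow]

variable {y}

theorem hasSum_num_inf (hy : y ≠ 0) (τ : ℍ) :
    HasSum (fun n : ℕ => (if n = 0 then u3 (omg y) else ∑ r ∈ n.divisors,
      (r : ℂ) ^ 2 * ((omg y) ^ r - ((omg y)⁻¹) ^ r)) * Periodic.qParam 1 (τ : ℂ) ^ n) (num l (vec y) τ) := by
  set q := Periodic.qParam 1 (τ : ℂ) with hq
  have hq1 : ‖q‖ < 1 := Periodic.norm_qParam_lt_one one_pos τ.im_pos
  have h := hasSum_num (vec_ne hy) (a := 0) (b := ((y.val : ℕ) : ℤ)) (by simp [vec]) (by simp [vec]) τ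
  have hf : HasSum (fun m : ℤ => u3 ((omg y) * q ^ (-m))) (num l (vec y) τ) :=
    h.congr_fun fun m => by rw [zero_sub, ← neg_mul, qp_pow_eq]; rfl
  have key := hasSum_rows hq1 hf (c := fun r => (r : ℂ) ^ 2 * ((omg y) ^ r - ((omg y)⁻¹) ^ r)) (C := 2)
    (fun r => by
      rw [norm_mul, norm_pow, Complex.norm_natCast, mul_comm (2 : ℝ)]
      refine mul_le_mul_of_nonneg_left ((norm_sub_le _ _).trans ?_) (by positivity)
      rw [norm_pow, norm_pow, norm_inv, norm_omega]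
      norm_num)
    fun m => by
      have hu : ∀ u : ℂ, ‖u‖ = 1 → ‖u * q ^ (m : ℕ)‖ < 1 := fun u hu => by
        rw [norm_mul, hu, one_mul, norm_pow]
        exact pow_lt_one₀ (norm_nonneg _) hq1 m.ne_zero
      have h1 := (hasSum_sq_geometric (hu (omg y) (norm_omega y))).sub
        (hasSum_sq_geometric (hu (omg y)⁻¹ (by rw [norm_inv, norm_omega, inv_one])))
      have e : u3 ((omg y) * q ^ (-((m : ℕ) : ℤ))) + u3 ((omg y) * q ^ (- -((m : ℕ) : ℤ))) =
          u3 ((omg y) * q ^ (m : ℕ)) - u3 ((omg y)⁻¹ * q ^ (m : ℕ)) := by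
        have e1 : (omg y) * (q ^ (m : ℕ))⁻¹ = ((omg y)⁻¹ * q ^ (m : ℕ))⁻¹ := by rw [mul_inv, inv_inv]
        rw [neg_neg, zpow_natCast, zpow_neg, zpow_natCast, e1, u3_inv]
        ring
      rw [e]
      refine h1.congr_fun fun r => ?_
      rw [mul_pow, mul_pow, pow_mul]
      ring
  simpa using key

theorem hasSum_den_inf [Fact l.Prime] (hl : 5 ≤ l) (hy : y ≠ 0) (τ : ℍ) :
    HasSum (fun n : ℕ => (if n = 0 then ufun (omg y) - ufun ((omg y) ^ 2) else ∑ r ∈ n.divisors,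
      (r : ℂ) * ((omg y) ^ r + ((omg y)⁻¹) ^ r - (((omg y) ^ 2) ^ r + (((omg y) ^ 2)⁻¹) ^ r))) *
        Periodic.qParam 1 (τ : ℂ) ^ n) (den l (vec y) τ) := by
  set q := Periodic.qParam 1 (τ : ℂ) with hq
  have hq1 : ‖q‖ < 1 := Periodic.norm_qParam_lt_one one_pos τ.im_pos
  set b : ℤ := ((y.val : ℕ) : ℤ) with hb
  have hpt : ((0 : ℤ) : ZMod l) ≠ 0 ∨ (b : ZMod l) ≠ 0 := Or.inr (by simpa [hb] using hy)
  have hpt2 : ((0 : ℤ) : ZMod l) ≠ 0 ∨ ((2 * b : ℤ) : ZMod l) ≠ 0 := Or.inr (by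
    have := (exists_ne (double_ne hl (vec_ne hy)).1).resolve_left (by simp [vec])
    simpa [hb, vec, two_mul] using this)
  have e0 : ∀ τ, wval l (vec y) τ = wv l 0 b τ := fun τ =>
    wval_eq (by simp [vec]) (by simp [vec, hb]) τ
  have e2 : ∀ τ, wval l (vec y + vec y) τ = wv l 0 (2 * b) τ := fun τ =>
    wval_eq (by simp [vec]) (by simp [vec, hb, two_mul]) τ
  have hω2 : ((zetaN l ^ (2 * b) : ℂˣ) : ℂ) = (omg y) ^ 2 := by
    rw [mul_comm, zpow_mul, show (2 : ℤ) = ((2 : ℕ) : ℤ) from rfl, zpow_natCast, Units.val_pow_eq_pow_val]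
    rfl
  have hf : HasSum (fun m : ℤ => ufun ((omg y) * q ^ (-m)) - ufun ((omg y) ^ 2 * q ^ (-m))) (den l (vec y) τ) := by
    rw [den, e0, e2]
    refine (hasSum_wp_sub τ (point_not_mem hpt τ) (point_not_mem hpt2 τ)).congr_fun fun m => ?_
    rw [exp_point, exp_point, hω2, zero_sub, ← neg_mul, qp_pow_eq]
    rfl
  have key := hasSum_rows hq1 hf
    (c := fun r => (r : ℂ) * ((omg y) ^ r + ((omg y)⁻¹) ^ r - (((omg y) ^ 2) ^ r + (((omg y) ^ 2)⁻¹) ^ r))) (C := 4)
    (fun r => by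
      rw [norm_mul, Complex.norm_natCast, mul_comm (4 : ℝ)]
      refine mul_le_mul ?_ ((norm_sub_le _ _).trans ?_) (norm_nonneg _) (by positivity)
      · exact_mod_cast Nat.le_self_pow two_ne_zero r
      refine (add_le_add (norm_add_le _ _) (norm_add_le _ _)).trans ?_
      simp only [norm_pow, norm_inv, norm_omega]
      norm_num)
    fun m => by
      have hu : ∀ u : ℂ, ‖u‖ = 1 → ‖u * q ^ (m : ℕ)‖ < 1 := fun u hu => by
        rw [norm_mul, hu, one_mul, norm_pow]
        exact pow_lt_one₀ (norm_nonneg _) hq1 m.ne_zero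
      have g := fun (u : ℂ) (hn : ‖u‖ = 1) => hasSum_coe_mul_geometric_of_norm_lt_one (hu u hn)
      have h1 := ((g (omg y) (norm_omega y)).add (g (omg y)⁻¹ (by rw [norm_inv, norm_omega, inv_one]))).sub
        ((g ((omg y) ^ 2) (by rw [norm_pow, norm_omega, one_pow])).add
          (g ((omg y) ^ 2)⁻¹ (by rw [norm_inv, norm_pow, norm_omega, one_pow, inv_one])))
      have e : ufun ((omg y) * q ^ (-((m : ℕ) : ℤ))) - ufun ((omg y) ^ 2 * q ^ (-((m : ℕ) : ℤ))) +
          (ufun ((omg y) * q ^ (- -((m : ℕ) : ℤ))) - ufun ((omg y) ^ 2 * q ^ (- -((m : ℕ) : ℤ)))) =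
          ufun ((omg y) * q ^ (m : ℕ)) + ufun ((omg y)⁻¹ * q ^ (m : ℕ)) -
            (ufun ((omg y) ^ 2 * q ^ (m : ℕ)) + ufun (((omg y) ^ 2)⁻¹ * q ^ (m : ℕ))) := by
        have e1 : ∀ u : ℂ, u * (q ^ (m : ℕ))⁻¹ = (u⁻¹ * q ^ (m : ℕ))⁻¹ := fun u => by
          rw [mul_inv, inv_inv]
        rw [neg_neg, zpow_natCast, zpow_neg, zpow_natCast, e1 (omg y), e1 ((omg y) ^ 2), ufun_inv, ufun_inv]
        ring
      rw [e]
      refine h1.congr_fun fun r => ?_
      simp only [mul_pow, ← pow_mul]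
      ring
  simpa using key

end Series

variable [Fact l.Prime] (O : Subring ℂ) (hζ : ((zetaN l : ℂˣ) : ℂ) ∈ O)

/-- The root of unity in the ring. -/
def zO : O := ⟨_, hζ⟩

variable (y : ZMod l)

/-- A power of it. -/
def wO : O := zO O hζ ^ y.val

/-- The inverse power. -/
def wI : O := zO O hζ ^ (-y).val

/-- `(1 - ζ)/(1 - ω)`. -/
def gO : O := ∑ i ∈ Finset.range (y⁻¹).val, wO O hζ y ^ i

/-- `1/(1 + ω)`. -/
def hO : O := ∑ i ∈ Finset.range (2 : ZMod l)⁻¹.val, (wO O hζ y ^ 2) ^ i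

/-- The scaled series of the numerator. -/
def serNum : PowerSeries O :=
  PowerSeries.mk fun n => if n = 0 then wO O hζ y * (1 + wO O hζ y) * gO O hζ y ^ 3
    else (1 - zO O hζ) ^ 3 * ∑ r ∈ n.divisors, (r : O) ^ 2 * (wO O hζ y ^ r - wI O hζ y ^ r)

/-- The scaled series of the denominator. -/
def serDen : PowerSeries O :=
  PowerSeries.mk fun n => if n = 0 then
      wO O hζ y * gO O hζ y ^ 2 * (1 + wO O hζ y + wO O hζ y ^ 2) * hO O hζ y ^ 2
    else (1 - zO O hζ) ^ 2 * ∑ r ∈ n.divisors,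
      (r : O) * (wO O hζ y ^ r + wI O hζ y ^ r - ((wO O hζ y ^ 2) ^ r + (wI O hζ y ^ 2) ^ r))

theorem zO_pow : zO O hζ ^ l = 1 :=
  Subtype.ext (by simpa [zO] using congrArg Units.val (zetaN_primitive (N := l)).pow_eq_one)

theorem zO_pow_val (n : ℕ) : zO O hζ ^ n = zO O hζ ^ ((n : ZMod l)).val := by
  conv_lhs => rw [← Nat.mod_add_div n l, pow_add, pow_mul, zO_pow, one_pow, mul_one]
  rw [ZMod.val_natCast]

theorem one_sub_zO_ne : (1 : O) - zO O hζ ≠ 0 := fun h => by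
  have h1 : ((zetaN l : ℂˣ) : ℂ) = 1 := (sub_eq_zero.1 (congrArg Subtype.val h)).symm
  exact ((zetaN_primitive (N := l)).ne_one (Fact.out : l.Prime).one_lt) (Units.ext h1)

theorem wO_pow_inv (hy : y ≠ 0) : wO O hζ y ^ (y⁻¹).val = zO O hζ := by
  haveI : Fact (1 < l) := ⟨(Fact.out : l.Prime).one_lt⟩
  rw [wO, ← pow_mul, zO_pow_val, show (((y.val * (y⁻¹).val : ℕ)) : ZMod l) = 1 by
    push_cast; simp [hy], ZMod.val_one, pow_one]

theorem wO_ne_one (hy : y ≠ 0) : (1 : O) - wO O hζ y ≠ 0 := fun h => by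
  refine one_sub_zO_ne O hζ ?_
  rw [← wO_pow_inv O hζ y hy, ← sub_eq_zero.1 h, one_pow, sub_self]

theorem wO_mul_wI : wO O hζ y * wI O hζ y = 1 := by
  rw [wO, wI, ← pow_add, zO_pow_val, show (((y.val + (-y).val : ℕ)) : ZMod l) = 0 by push_cast; simp,
    ZMod.val_zero, pow_zero]

theorem one_sub_mul_gO (hy : y ≠ 0) : (1 - wO O hζ y) * gO O hζ y = 1 - zO O hζ := by
  rw [gO, mul_neg_geom_sum, wO_pow_inv O hζ y hy]

variable (hl : 5 ≤ l)

include hl in
theorem wO_pow_inv_two : (wO O hζ y ^ 2) ^ (2 : ZMod l)⁻¹.val = wO O hζ y := by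
  have h2 : (2 : ZMod l) ≠ 0 := by exact_mod_cast natCast_ne hl (j := 2) (by norm_num) (by norm_num)
  conv_rhs => rw [wO, zO_pow_val]
  rw [wO, ← pow_mul, ← pow_mul, zO_pow_val]
  congr 2
  push_cast
  simp [mul_assoc, h2]

include hl in
theorem one_add_mul_hO (hy : y ≠ 0) : (1 + wO O hζ y) * hO O hζ y = 1 := by
  refine mul_left_cancel₀ (wO_ne_one O hζ y hy) ?_
  rw [← mul_assoc, show (1 - wO O hζ y) * (1 + wO O hζ y) = 1 - wO O hζ y ^ 2 by ring, hO,
    mul_neg_geom_sum, wO_pow_inv_two O hζ y hl, mul_one]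

include hl in
theorem isUnit_serDen (hy : y ≠ 0) : IsUnit (serDen O hζ y) := by
  rw [PowerSeries.isUnit_iff_constantCoeff]
  have h3 : (3 : ZMod l) ≠ 0 := by exact_mod_cast natCast_ne hl (j := 3) (by norm_num) (by norm_num)
  have hw3 : (wO O hζ y ^ 3) ^ (3 : ZMod l)⁻¹.val = wO O hζ y := by
    conv_rhs => rw [wO, zO_pow_val]
    rw [wO, ← pow_mul, ← pow_mul, zO_pow_val]
    congr 2
    push_cast
    simp [mul_assoc, h3]
  have u1 : IsUnit (wO O hζ y) := IsUnit.of_mul_eq_one _ (wO_mul_wI O hζ y)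
  have u2 : IsUnit (gO O hζ y) := by
    refine IsUnit.of_mul_eq_one (∑ i ∈ Finset.range y.val, zO O hζ ^ i) ?_
    refine mul_left_cancel₀ (wO_ne_one O hζ y hy) ?_
    rw [← mul_assoc, one_sub_mul_gO O hζ y hy, mul_neg_geom_sum, mul_one]
    rfl
  have u3' : IsUnit (1 + wO O hζ y + wO O hζ y ^ 2) := by
    refine IsUnit.of_mul_eq_one (∑ i ∈ Finset.range (3 : ZMod l)⁻¹.val, (wO O hζ y ^ 3) ^ i) ?_
    refine mul_left_cancel₀ (wO_ne_one O hζ y hy) ?_
    rw [← mul_assoc, show (1 - wO O hζ y) * (1 + wO O hζ y + wO O hζ y ^ 2) = 1 - wO O hζ y ^ 3 by ring,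
      mul_neg_geom_sum, hw3, mul_one]
  have u4 : IsUnit (hO O hζ y) := IsUnit.of_mul_eq_one _ ((mul_comm _ _).trans (one_add_mul_hO O hζ y hl hy))
  rw [← PowerSeries.coeff_zero_eq_constantCoeff_apply, serDen, PowerSeries.coeff_mk, if_pos rfl]
  exact ((u1.mul (u2.pow 2)).mul u3').mul (u4.pow 2)

theorem coe_wO : ((wO O hζ y : O) : ℂ) = omg y := by
  rw [omg, zpow_natCast]
  simp [wO, zO]

theorem coe_wI : ((wI O hζ y : O) : ℂ) = (omg y)⁻¹ := by
  refine eq_inv_of_mul_eq_one_right ?_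
  rw [← coe_wO O hζ y, ← Subring.coe_mul, wO_mul_wI, Subring.coe_one]

theorem hasSum_serNum (hy : y ≠ 0) (τ : ℍ) :
    HasSum (fun n : ℕ => ((PowerSeries.coeff n (serNum O hζ y) : O) : ℂ) *
      Periodic.qParam 1 (τ : ℂ) ^ n) ((1 - (zetaN l : ℂ)) ^ 3 * num l (vec y) τ) := by
  refine ((hasSum_num_inf hy τ).mul_left _).congr_fun fun n => ?_
  rw [← mul_assoc]
  congr 1
  rw [serNum, PowerSeries.coeff_mk]
  split_ifs
  · have h1 := congrArg Subtype.val (one_sub_mul_gO O hζ y hy)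
    have h0 : (1 : ℂ) - ((wO O hζ y : O) : ℂ) ≠ 0 := fun h => wO_ne_one O hζ y hy (Subtype.ext h)
    push_cast at h1
    rw [coe_wO] at h1 h0
    push_cast
    rw [coe_wO, u3]
    have hz : ((zO O hζ : O) : ℂ) = (zetaN l : ℂ) := rfl
    rw [hz] at h1
    rw [← h1, mul_pow]
    field_simp
  · push_cast
    rw [coe_wO, coe_wI]
    rfl

include hl in
theorem hasSum_serDen (hy : y ≠ 0) (τ : ℍ) :
    HasSum (fun n : ℕ => ((PowerSeries.coeff n (serDen O hζ y) : O) : ℂ) *
      Periodic.qParam 1 (τ : ℂ) ^ n) ((1 - (zetaN l : ℂ)) ^ 2 * den l (vec y) τ) := by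
  refine ((hasSum_den_inf hl hy τ).mul_left _).congr_fun fun n => ?_
  rw [← mul_assoc]
  congr 1
  rw [serDen, PowerSeries.coeff_mk]
  split_ifs
  · have h1 := congrArg Subtype.val (one_sub_mul_gO O hζ y hy)
    have h2 := congrArg Subtype.val (one_add_mul_hO O hζ y hl hy)
    have h0 : (1 : ℂ) - ((wO O hζ y : O) : ℂ) ≠ 0 := fun h => wO_ne_one O hζ y hy (Subtype.ext h)
    push_cast at h1 h2
    have h3 : (1 : ℂ) + ((wO O hζ y : O) : ℂ) ≠ 0 := left_ne_zero_of_mul_eq_one h2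
    have h4 : ((hO O hζ y : O) : ℂ) = ((1 : ℂ) + ((wO O hζ y : O) : ℂ))⁻¹ := eq_inv_of_mul_eq_one_right h2
    rw [coe_wO] at h1 h0 h3 h4
    push_cast
    rw [coe_wO, h4]
    have hz : ((zO O hζ : O) : ℂ) = (zetaN l : ℂ) := rfl
    rw [hz] at h1
    rw [← h1, mul_pow, ufun, ufun]
    have h5 : (1 : ℂ) - omg y ^ 2 ≠ 0 := by
      rw [show ∀ x : ℂ, (1 : ℂ) - x ^ 2 = (1 - x) * (1 + x) from fun x => by ring]
      exact mul_ne_zero h0 h3
    field_simp
    ring
  · push_cast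
    rw [coe_wO, coe_wI, inv_pow (_ : ℂ) 2]
    rfl

/-- A function as a term of a function-like type. -/
structure HFun where
  /-- The function. -/
  toFun : ℍ → ℂ

instance : FunLike HFun ℍ ℂ := ⟨HFun.toFun, fun a b h => by cases a; cases b; cases h; rfl⟩

theorem qExpansion_eq_map {F : ℍ → ℂ} (hF : IsQSeries F) {R : Subring ℂ} (S : PowerSeries R)
    (hs : ∀ τ : ℍ, HasSum (fun n : ℕ => ((PowerSeries.coeff n S : R) : ℂ) *
      Periodic.qParam 1 (τ : ℂ) ^ n) (F τ)) : qExpansion 1 F = PowerSeries.map R.subtype S := by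
  ext n
  rw [PowerSeries.coeff_map]
  have h := UpperHalfPlane.qExpansion_coeff_unique (h := (1 : ℝ)) (⟨F⟩ : HFun)
    (c := fun n => ((PowerSeries.coeff n S : R) : ℂ)) one_pos hF.analyticAt
    (fun τ => (hs τ).congr_fun fun n => smul_eq_mul _ _) n
  exact h.symm

include hl hζ in
set_option maxHeartbeats 1000000 in
/-- The series of `(1 - ζ)` times the quotient, modulo a prime over `l`. -/
theorem exists_serQuo (hy : y ≠ 0) {k : Type*} [Field k] [CharP k l] (φ : O →+* k) :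
    ∃ S : PowerSeries O, IsQSeries (((1 - (zetaN l : ℂ))) • quo l (vec y)) ∧
      qExpansion 1 (((1 - (zetaN l : ℂ))) • quo l (vec y)) = PowerSeries.map O.subtype S ∧
      PowerSeries.map φ S = PowerSeries.C (8 / 3 * (ZMod.castHom (dvd_refl l) k y)⁻¹) := by
  set π : ℂ := 1 - (zetaN l : ℂ) with hπ
  have hv := vec_ne hy
  have hA : IsQSeries (π ^ 3 • num l (vec y)) :=
    IsQSeries.smul _ ⟨periodic_num y, mdiff_num _, by
      change IsBoundedAtImInfty ((2 * (l : ℂ) ^ 3 / (-2 * Real.pi * I) ^ 3) • latSum3 (ind l (vec y)))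
      exact (bdd_latSum3 (norm_ind l (vec y))).smul _⟩
  have hdb : IsBoundedAtImInfty (π ^ 2 • den l (vec y)) := by
    refine (HasExp.of_nat (n := 1) (P := PowerSeries.map O.subtype (serDen O hζ y))
      (Eventually.of_forall fun τ => ?_)).isBoundedAtImInfty fun i hi =>
        ofPowerSeries_coeff_of_neg _ hi
    simpa [qp] using hasSum_serDen O hζ y hl hy τ
  have hB : IsQSeries (π ^ 2 • den l (vec y)) :=
    ⟨(IsQSeries.smul (F := den l (vec y)) _ ⟨periodic_den y, mdiff_den hl hv, by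
        have := hdb.smul ((π ^ 2)⁻¹)
        rwa [inv_smul_smul₀] at this
        refine pow_ne_zero _ fun h => one_sub_zO_ne O hζ (Subtype.ext ?_)
        simpa [hπ, zO] using h⟩).periodic, (mdiff_den hl hv).const_smul _, hdb⟩
  have hQ : IsQSeries (π • quo l (vec y)) :=
    IsQSeries.smul _ ⟨periodic_quo y, mdiff_quo hl hv, bdd_quo hl hv⟩
  have eA : qExpansion 1 (π ^ 3 • num l (vec y)) = PowerSeries.map O.subtype (serNum O hζ y) := by
    refine qExpansion_eq_map hA _ fun τ => ?_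
    rw [Pi.smul_apply, smul_eq_mul, hπ]
    exact hasSum_serNum O hζ y hy τ
  have eB : qExpansion 1 (π ^ 2 • den l (vec y)) = PowerSeries.map O.subtype (serDen O hζ y) := by
    refine qExpansion_eq_map hB _ fun τ => ?_
    rw [Pi.smul_apply, smul_eq_mul, hπ]
    exact hasSum_serDen O hζ y hl hy τ
  have hmul : (π • quo l (vec y)) * (π ^ 2 • den l (vec y)) = π ^ 3 • num l (vec y) := by
    funext τ
    simp only [Pi.mul_apply, Pi.smul_apply, smul_eq_mul, quo]
    have := den_ne hl hv τ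
    field_simp
  obtain ⟨U, hU⟩ := isUnit_serDen O hζ y hl hy
  refine ⟨serNum O hζ y * (U⁻¹ : (PowerSeries O)ˣ), hQ, ?_, ?_⟩
  · have h1 := qExpansion_mul hQ.analyticAt hB.analyticAt
    rw [hmul, eA, eB, ← hU] at h1
    rw [map_mul, h1, mul_assoc, ← map_mul, Units.mul_inv, map_one, mul_one]
  · haveI : NeZero ((l : ℕ)) := ⟨(Fact.out : l.Prime).ne_zero⟩
    set c := ZMod.castHom (dvd_refl l) k
    have hz : φ (zO O hζ) = 1 := by
      refine sub_eq_zero.1 (eq_zero_of_pow_eq_zero (n := l) ?_)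
      rw [sub_pow_char, one_pow, ← map_pow, zO_pow, map_one, sub_self]
    have hw : φ (wO O hζ y) = 1 := by rw [wO, map_pow, hz, one_pow]
    have hval : ∀ z : ZMod l, ((z.val : ℕ) : k) = c z := fun z => by
      rw [← map_natCast c, ZMod.natCast_zmod_val]
    have hg : φ (gO O hζ y) = (c y)⁻¹ := by
      rw [gO, map_sum]
      simp [hw, hval, map_inv₀]
    have hh : φ (hO O hζ y) = 2⁻¹ := by
      rw [hO, map_sum]
      simp [hw, hval, map_inv₀, map_ofNat]
    have e1 : PowerSeries.map φ (serNum O hζ y) = PowerSeries.C (2 * ((c y)⁻¹) ^ 3) := by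
      ext n
      rw [PowerSeries.coeff_map, serNum, PowerSeries.coeff_mk, PowerSeries.coeff_C]
      split_ifs
      · simp only [map_mul, map_add, map_one, map_pow, hw, hg]
        ring
      · simp [hz]
    have e2 : PowerSeries.map φ (serDen O hζ y) = PowerSeries.C (3 * (2 : k)⁻¹ ^ 2 * ((c y)⁻¹) ^ 2) := by
      ext n
      rw [PowerSeries.coeff_map, serDen, PowerSeries.coeff_mk, PowerSeries.coeff_C]
      split_ifs
      · simp only [map_mul, map_add, map_one, map_pow, hw, hg, hh]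
        ring
      · simp [hz]
    have h3 : ((3 : ℕ) : k) ≠ 0 := fun h => natCast_ne hl (j := 3) (by norm_num) (by norm_num)
      ((CharP.cast_eq_zero_iff (ZMod l) l 3).2 ((CharP.cast_eq_zero_iff k l 3).1 h))
    have h4 : ((2 : ℕ) : k) ≠ 0 := fun h => natCast_ne hl (j := 2) (by norm_num) (by norm_num)
      ((CharP.cast_eq_zero_iff (ZMod l) l 2).2 ((CharP.cast_eq_zero_iff k l 2).1 h))
    have hcy : c y ≠ 0 := (map_ne_zero c).2 hy
    have hne : (PowerSeries.C (3 * (2 : k)⁻¹ ^ 2 * ((c y)⁻¹) ^ 2) : PowerSeries k) ≠ 0 := by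
      rw [Ne, map_eq_zero_iff _ PowerSeries.C_injective]
      push_cast at h3 h4
      simp [h3, h4, hcy]
    refine mul_right_cancel₀ hne ?_
    rw [← e2, ← map_mul, mul_assoc, ← hU, Units.inv_mul, mul_one, e1, hU, e2, ← map_mul]
    congr 1
    push_cast at h3 h4
    field_simp
    ring

end FLTAgent.DeligneSerre.Congr
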