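import Fermat.Agent.DeligneSerre.Congr.Infinity

/-!
# A ring of constants, a prime over `l` in it and the Teichmüller character
-/

set_option autoImplicit false
set_option linter.style.haveILetI false

noncomputable section

open Filter Topology Complex Function FLTAgent.GoodModel

namespace FLTAgent.DeligneSerre.Congr

/-- A prime is not invertible in a ring of algebraic integers. -/
theorem not_isUnit_natCast {O : Subring ℂ} (hO : ∀ x : O, IsIntegral ℤ (x : ℂ)) {l : ℕ}
    (hl : l.Prime) : ¬ IsUnit (l : O) := fun h => by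
  obtain ⟨u, hu⟩ := h.exists_right_inv
  have hl0 : (l : ℂ) ≠ 0 := Nat.cast_ne_zero.mpr hl.ne_zero
  have h1 : (u : ℂ) = algebraMap ℚ ℂ (l : ℚ)⁻¹ := by
    have h2 := congrArg (fun z : O => (z : ℂ)) hu
    push_cast at h2
    rw [map_inv₀, map_natCast]
    exact eq_inv_of_mul_eq_one_right h2
  have h3 := hO u
  rw [h1, isIntegral_algebraMap_iff (algebraMap ℚ ℂ).injective, IsIntegrallyClosed.isIntegral_iff] at h3
  obtain ⟨m, hm⟩ := h3
  simp only [algebraMap_int_eq, eq_intCast] at hm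
  have h4 : ((m * l : ℤ) : ℚ) = ((1 : ℤ) : ℚ) := by
    push_cast
    rw [hm, inv_mul_cancel₀ (Nat.cast_ne_zero.mpr hl.ne_zero)]
  have h5 : (l : ℤ) ∣ 1 := ⟨m, by rw [mul_comm]; exact_mod_cast h4.symm⟩
  exact hl.not_dvd_one (Int.natCast_dvd_natCast.1 (by exact_mod_cast h5))

/-- The data at a prime over `l`. -/
structure Setting (l : ℕ) [NeZero l] (R : Subring ℂ) where
  O : Subring ℂ
  le : R ≤ O
  zeta_mem : ((zetaN l : ℂˣ) : ℂ) ∈ O
  k : Type
  field : Field k
  fin : Finite k
  char : CharP k l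
  φ : O →+* k
  χ : DirichletCharacter ℂ l
  χ_mem : ∀ x, χ x ∈ O
  φχ : ∀ x : (ZMod l)ˣ, φ ⟨_, χ_mem x⟩ = ZMod.castHom (dvd_refl l) k (x : ZMod l)

theorem nonempty_setting {l : ℕ} [NeZero l] [Fact l.Prime] (R : Subring ℂ) (hR : Module.Finite ℤ R) :
    Nonempty (Setting l R) := by
  have hl : l.Prime := Fact.out
  haveI : NeZero (l - 1) := ⟨by have := hl.two_le; omega⟩
  obtain ⟨s, hs⟩ := hR.fg_top
  set gens : Set ℂ := ((fun x : R => (x : ℂ)) '' (s : Set R)) ∪
    {((zetaN l : ℂˣ) : ℂ), ((zetaN (l - 1) : ℂˣ) : ℂ)}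
  have hint : ∀ x ∈ gens, IsIntegral ℤ x := by
    rintro x (⟨y, -, rfl⟩ | rfl | rfl)
    · haveI := hR
      exact (Algebra.IsIntegral.isIntegral (R := ℤ) y).map R.subtype.toIntAlgHom
    · exact ⟨Polynomial.X ^ l - 1, Polynomial.monic_X_pow_sub_C 1 (NeZero.ne l), by
        simpa [sub_eq_zero] using congrArg Units.val (zetaN_primitive (N := l)).pow_eq_one⟩
    · exact ⟨Polynomial.X ^ (l - 1) - 1, Polynomial.monic_X_pow_sub_C 1 (NeZero.ne (l - 1)), by
        simpa [sub_eq_zero] using congrArg Units.val (zetaN_primitive (N := l - 1)).pow_eq_one⟩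
  set A := Algebra.adjoin ℤ gens with hA
  have hgfin : gens.Finite := (s.finite_toSet.image _).union (by simp)
  have hAfg := fg_adjoin_of_finite hgfin hint
  haveI : Module.Finite ℤ A := Module.Finite.of_fg hAfg
  set O : Subring ℂ := A.toSubring
  have hOint : ∀ x : O, IsIntegral ℤ (x : ℂ) := fun x =>
    (Algebra.IsIntegral.isIntegral (R := ℤ) (⟨x, x.2⟩ : A)).map A.val
  have hle : R ≤ O := fun x hx => by
    have h1 : (⟨x, hx⟩ : R) ∈ Submodule.span ℤ (s : Set R) := hs ▸ Submodule.mem_top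
    have h2 := Submodule.apply_mem_span_image_of_mem_span (R.subtype.toIntAlgHom.toLinearMap) h1
    refine (Submodule.span_le (p := Subalgebra.toSubmodule A)).2 ?_ h2
    rintro _ ⟨y, hy, rfl⟩
    exact Algebra.subset_adjoin (Or.inl ⟨y, hy, rfl⟩)
  obtain ⟨P, hP, hlP⟩ := Ideal.exists_le_maximal (Ideal.span {(l : O)})
    (by rw [Ne, Ideal.span_singleton_eq_top]; exact not_isUnit_natCast hOint hl)
  letI := Ideal.Quotient.field P
  set φ := Ideal.Quotient.mk P
  have hl0 : (l : O ⧸ P) = 0 := by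
    rw [← map_natCast φ, Ideal.Quotient.eq_zero_iff_mem]
    exact hlP (Ideal.mem_span_singleton_self _)
  haveI hchar : CharP (O ⧸ P) l := (CharP.charP_iff_prime_eq_zero hl).2 hl0
  haveI hfin : Finite (O ⧸ P) := by
    letI := ZMod.algebra (O ⧸ P) l
    haveI : Module.Finite ℤ O := ‹Module.Finite ℤ A›
    haveI : Module.Finite ℤ (O ⧸ P) :=
      Module.Finite.of_surjective (φ.toIntAlgHom.toLinearMap) Ideal.Quotient.mk_surjective
    haveI : Module.Finite (ZMod l) (O ⧸ P) := Module.Finite.of_restrictScalars_finite ℤ (ZMod l) _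
    exact Module.finite_of_finite (ZMod l)
  -- the roots of unity of order prime to `l`
  set ξ : O := ⟨_, Algebra.subset_adjoin (Or.inr (Or.inr rfl))⟩ with hξdef
  have hξ : IsPrimitiveRoot ξ (l - 1) := by
    refine IsPrimitiveRoot.of_map_of_injective (f := O.subtype) ?_ Subtype.val_injective
    exact (zetaN_primitive (N := l - 1)).map_of_injective (f := Units.coeHom ℂ) Units.val_injective
  have hinj : ∀ z : O, z ^ (l - 1) = 1 → φ z = 1 → z = 1 := fun z hz hφ => by
    by_contra h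
    have h0 : ∑ i ∈ Finset.range (l - 1), z ^ i = 0 := by
      have := mul_neg_geom_sum z (l - 1)
      rw [hz, sub_self, mul_eq_zero, sub_eq_zero] at this
      exact this.resolve_left (Ne.symm h)
    have h1 := congrArg φ h0
    simp [hφ, Nat.cast_sub hl.one_le, hl0] at h1
  have hinj' : ∀ z z' : O, z ^ (l - 1) = 1 → z' ^ (l - 1) = 1 → φ z = φ z' → z = z' := by
    intro z z' hz hz' he
    have hz'0 : z' ^ (l - 2) * z' = 1 := by
      rw [← pow_succ, show l - 2 + 1 = l - 1 by have := hl.two_le; omega, hz']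
    have h1 : z * z' ^ (l - 2) = 1 := hinj _
      (by rw [mul_pow, hz, ← pow_mul, mul_comm (l - 2), pow_mul, hz', one_pow, one_mul])
      (by rw [map_mul, he, ← map_mul, mul_comm, hz'0, map_one])
    calc z = z * (z' ^ (l - 2) * z') := by rw [hz'0, mul_one]
      _ = z' := by rw [← mul_assoc, h1, one_mul]
  have hη : IsPrimitiveRoot (φ ξ) (l - 1) := by
    refine ⟨by rw [← map_pow, hξ.pow_eq_one, map_one], fun i hi => ?_⟩
    refine hξ.dvd_of_pow_eq_one i (hinj _ ?_ (by rw [map_pow, hi]))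
    rw [← pow_mul, mul_comm, pow_mul, hξ.pow_eq_one, one_pow]
  set c := ZMod.castHom (dvd_refl l) (O ⧸ P)
  have hex : ∀ x : (ZMod l)ˣ, ∃ z : O, z ^ (l - 1) = 1 ∧ φ z = c (x : ZMod l) := fun x => by
    obtain ⟨i, -, hi⟩ := hη.eq_pow_of_pow_eq_one
      (show c (x : ZMod l) ^ (l - 1) = 1 by rw [← map_pow, ZMod.pow_card_sub_one_eq_one x.ne_zero, map_one])
    exact ⟨ξ ^ i, by rw [← pow_mul, mul_comm, pow_mul, hξ.pow_eq_one, one_pow], by rw [map_pow, hi]⟩
  choose t ht1 ht2 using hex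
  let tHom : (ZMod l)ˣ →* ℂ :=
    { toFun := fun x => (t x : ℂ)
      map_one' := by
        rw [hinj' (t 1) 1 (ht1 1) (one_pow _) (by rw [ht2]; simp)]
        rfl
      map_mul' := fun x y => by
        rw [hinj' (t (x * y)) (t x * t y) (ht1 _) (by rw [mul_pow, ht1, ht1, one_mul])
          (by rw [ht2, map_mul, ht2, ht2, Units.val_mul, map_mul])]
        rfl }
  have hχ : ∀ x : (ZMod l)ˣ, MulChar.ofUnitHom tHom.toHomUnits (x : ZMod l) = (t x : ℂ) := fun x => by
    rw [MulChar.ofUnitHom_coe]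
    rfl
  have hmem : ∀ x : ZMod l, MulChar.ofUnitHom tHom.toHomUnits x ∈ O := fun x => by
    by_cases hx : IsUnit x
    · rw [← hx.unit_spec, hχ]
      exact (t _).2
    · rw [MulChar.map_nonunit _ hx]
      exact O.zero_mem
  exact ⟨{ O := O, le := hle, zeta_mem := Algebra.subset_adjoin (Or.inr (Or.inl rfl)), k := O ⧸ P
           field := inferInstance, fin := hfin, char := hchar, φ := φ
           χ := MulChar.ofUnitHom tHom.toHomUnits, χ_mem := hmem
           φχ := fun x => by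
             rw [show (⟨_, hmem (x : ZMod l)⟩ : O) = t x from Subtype.ext (hχ x), ht2] }⟩

end FLTAgent.DeligneSerre.Congr
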