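import Fermat.Agent.DeligneSerre.Congr.Rows

/-!
# Forms of weight one of level `Γ(l)` as quotients of torsion sums of weight three and two
-/

set_option autoImplicit false
set_option linter.style.haveILetI false
set_option linter.unusedSectionVars false

noncomputable section

open UpperHalfPlane hiding I I_re I_im
open Filter Topology Complex Function FLTAgent.GoodModel FLTAgent.ModEq ModularCurve
open EisensteinSeries (eisSummand)
open scoped MatrixGroups ModularForm Manifold Matrix Classical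

namespace FLTAgent.DeligneSerre.Congr

variable (l : ℕ) [NeZero l]

/-- The action on the vectors modulo `l`. -/
def act (v : Fin 2 → ZMod l) (g : SL(2, ℤ)) : Fin 2 → ZMod l :=
  ![v 0 * ((g 0 0 : ℤ) : ZMod l) + v 1 * ((g 1 0 : ℤ) : ZMod l),
    v 0 * ((g 0 1 : ℤ) : ZMod l) + v 1 * ((g 1 1 : ℤ) : ZMod l)]

/-- The indicator of a class. -/
def ind (v : Fin 2 → ZMod l) (u : Fin 2 → ℤ) : ℂ :=
  if ((u 0 : ZMod l) = v 0 ∧ (u 1 : ZMod l) = v 1) then 1 else 0

/-- The torsion sum of weight three. -/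
def num (v : Fin 2 → ZMod l) (τ : ℍ) : ℂ :=
  2 * (l : ℂ) ^ 3 / (-2 * Real.pi * I) ^ 3 * latSum3 (ind l v) τ

/-- The torsion value of `℘`. -/
def wval (v : Fin 2 → ZMod l) (τ : ℍ) : ℂ := wv l (v 0).val (v 1).val τ

/-- The difference of weight two. -/
def den (v : Fin 2 → ZMod l) (τ : ℍ) : ℂ := (wval l v τ - wval l (v + v) τ) / (2 * Real.pi * I) ^ 2

/-- The quotient of weight one. -/
def quo (v : Fin 2 → ZMod l) (τ : ℍ) : ℂ := num l v τ / den l v τ

theorem norm_ind (v : Fin 2 → ZMod l) (u : Fin 2 → ℤ) : ‖ind l v u‖ ≤ 1 := by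
  unfold ind; split_ifs <;> simp

variable {l}

theorem wval_eq {v : Fin 2 → ZMod l} {a b : ℤ} (ha : (a : ZMod l) = v 0) (hb : (b : ZMod l) = v 1)
    (τ : ℍ) : wval l v τ = wv l a b τ :=
  wv_congr l (by rw [ha]; simp) (by rw [hb]; simp) τ

theorem wval_smul (v : Fin 2 → ZMod l) (g : SL(2, ℤ)) (τ : ℍ) :
    wval l v (g • τ) = denom g (τ : ℂ) ^ 2 * wval l (act l v g) τ := by
  rw [wval, wv_smul, wval_eq (v := act l v g) (a := ((v 0).val : ℤ) * g 0 0 + (v 1).val * g 1 0)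
    (b := ((v 0).val : ℤ) * g 0 1 + (v 1).val * g 1 1) (by simp [act]) (by simp [act])]
  simp [denom]

theorem act_add (v w : Fin 2 → ZMod l) (g : SL(2, ℤ)) : act l (v + w) g = act l v g + act l w g := by
  funext i; fin_cases i <;> simp [act] <;> ring

theorem ind_comp (v : Fin 2 → ZMod l) (g : SL(2, ℤ)) (u : Fin 2 → ℤ) :
    ind l v (u ᵥ* ((g⁻¹ : SL(2, ℤ)) : Matrix (Fin 2) (Fin 2) ℤ)) = ind l (act l v g) u := by
  have hdet : ((g 0 0 : ℤ) : ZMod l) * (g 1 1 : ℤ) - (g 0 1 : ℤ) * (g 1 0 : ℤ) = 1 := by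
    have := congrArg (fun z : ℤ => (z : ZMod l)) (det_eq g)
    push_cast at this
    exact this
  unfold ind
  refine if_congr ?_ rfl rfl
  simp only [Matrix.SpecialLinearGroup.coe_inv, Matrix.adjugate_fin_two, Matrix.vecMul, dotProduct,
    Fin.sum_univ_two, act, Matrix.of_apply, Matrix.cons_val', Matrix.cons_val_zero,
    Matrix.cons_val_one, Matrix.empty_val', Matrix.cons_val_fin_one]
  push_cast
  constructor
  · rintro ⟨h0, h1⟩
    rw [← h0, ← h1]
    constructor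
    · linear_combination -((u 0 : ℤ) : ZMod l) * hdet
    · linear_combination -((u 1 : ℤ) : ZMod l) * hdet
  · rintro ⟨h0, h1⟩
    rw [h0, h1]
    constructor
    · linear_combination v 0 * hdet
    · linear_combination v 1 * hdet

theorem num_smul (v : Fin 2 → ZMod l) (g : SL(2, ℤ)) (τ : ℍ) :
    num l v (g • τ) = denom g (τ : ℂ) ^ 3 * num l (act l v g) τ := by
  rw [num, num, latSum3_smul, show (fun u : Fin 2 → ℤ => ind l v (u ᵥ* ((g⁻¹ : SL(2, ℤ)) :
    Matrix (Fin 2) (Fin 2) ℤ))) = ind l (act l v g) from funext (ind_comp v g),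
    show (3 : ℤ) = ((3 : ℕ) : ℤ) from rfl, zpow_natCast]
  ring

theorem den_smul (v : Fin 2 → ZMod l) (g : SL(2, ℤ)) (τ : ℍ) :
    den l v (g • τ) = denom g (τ : ℂ) ^ 2 * den l (act l v g) τ := by
  rw [den, den, wval_smul, wval_smul, act_add]
  ring

theorem quo_smul (v : Fin 2 → ZMod l) (g : SL(2, ℤ)) (τ : ℍ) :
    quo l v (g • τ) = denom g (τ : ℂ) * quo l (act l v g) τ := by
  have := denom_ne_zero g τ
  rw [quo, quo, num_smul, den_smul]
  field_simp

theorem quo_slash (v : Fin 2 → ZMod l) (g : SL(2, ℤ)) :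
    quo l v ∣[(1 : ℤ)] g = quo l (act l v g) := by
  funext τ
  rw [ModularForm.SL_slash_apply, quo_smul, zpow_neg_one]
  field_simp [denom_ne_zero g τ]

omit [NeZero l] in
theorem exists_ne {v : Fin 2 → ZMod l} (hv : v ≠ 0) : v 0 ≠ 0 ∨ v 1 ≠ 0 := by
  by_contra h
  push Not at h
  exact hv (funext fun i => by fin_cases i <;> [exact h.1; exact h.2])

section Prime

variable [Fact l.Prime] (hl : 5 ≤ l)

include hl in
theorem natCast_ne {j : ℕ} (hj : 0 < j) (hj' : j < 5) : (j : ZMod l) ≠ 0 := fun h => by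
  have := Nat.le_of_dvd hj ((CharP.cast_eq_zero_iff (ZMod l) l j).1 h)
  omega

include hl in
theorem double_ne {v : Fin 2 → ZMod l} (hv : v ≠ 0) : v + v ≠ 0 ∧ v + v ≠ v ∧ v + v ≠ -v := by
  refine ⟨fun h => hv ?_, fun h => hv (add_eq_left.mp h), fun h => hv ?_⟩
  · funext i
    have h1 := congrFun h i
    simp only [Pi.add_apply, Pi.zero_apply, ← two_mul] at h1
    exact (mul_eq_zero.1 h1).resolve_left (by exact_mod_cast natCast_ne hl (j := 2) (by norm_num) (by norm_num))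
  · funext i
    have h1 := congrFun h i
    simp only [Pi.add_apply, Pi.neg_apply] at h1
    have h2 : (3 : ZMod l) * v i = 0 := by linear_combination h1
    exact (mul_eq_zero.1 h2).resolve_left (by exact_mod_cast natCast_ne hl (j := 3) (by norm_num) (by norm_num))

theorem point_ne {v : Fin 2 → ZMod l} (hv : v ≠ 0) :
    (((v 0).val : ℤ) : ZMod l) ≠ 0 ∨ (((v 1).val : ℤ) : ZMod l) ≠ 0 := by
  simpa using exists_ne hv

include hl in
theorem den_ne {v : Fin 2 → ZMod l} (hv : v ≠ 0) (τ : ℍ) : den l v τ ≠ 0 := by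
  obtain ⟨h0, h1, h2⟩ := double_ne hl hv
  refine div_ne_zero (sub_ne_zero.2 fun h => ?_) (by simp [Real.pi_ne_zero, I_ne_zero])
  rcases (wv_eq_iff (point_ne hv) (point_ne h0) τ).1 h with ⟨e0, e1⟩ | ⟨e0, e1⟩ <;>
    simp only [Int.cast_natCast, ZMod.natCast_zmod_val] at e0 e1
  · exact h1 (funext fun i => by fin_cases i <;> [exact e0.symm; exact e1.symm])
  · refine h2 (funext fun i => ?_)
    fin_cases i <;> simp only [Pi.neg_apply]
    · exact (neg_eq_iff_eq_neg.2 e0).symm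
    · exact (neg_eq_iff_eq_neg.2 e1).symm

omit [Fact l.Prime] in
theorem mdiff_num (v : Fin 2 → ZMod l) : MDiff (num l v) :=
  (mdiff_latSum3 (norm_ind l v)).const_smul (2 * (l : ℂ) ^ 3 / (-2 * Real.pi * I) ^ 3)

include hl in
theorem mdiff_den {v : Fin 2 → ZMod l} (hv : v ≠ 0) : MDiff (den l v) :=
  mdiff_wv_sub (point_ne hv) (point_ne (double_ne hl hv).1)

include hl in
theorem mdiff_quo {v : Fin 2 → ZMod l} (hv : v ≠ 0) : MDiff (quo l v) := by
  have hn := mdiff_num v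
  have hd := mdiff_den hl hv
  rw [UpperHalfPlane.mdifferentiable_iff] at hn hd ⊢
  exact hn.div hd fun z _ => den_ne hl hv _

end Prime

/-- The rows of the torsion sum. -/
theorem hasSum_num {v : Fin 2 → ZMod l} (hv : v ≠ 0) {a b : ℤ} (ha : (a : ZMod l) = v 0)
    (hb : (b : ZMod l) = v 1) (τ : ℍ) :
    HasSum (fun m : ℤ => u3 (((zetaN l ^ b : ℂˣ) : ℂ) * qp l τ ^ (a - m * l))) (num l v τ) := by
  set e : ℤ × ℤ → Fin 2 → ℤ := fun p => ![a - p.1 * l, b + p.2 * l] with he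
  have hl0 : (l : ℤ) ≠ 0 := by exact_mod_cast NeZero.ne l
  have hinj : Injective e := fun p p' h => by
    have h0 := congrFun h 0
    have h1 := congrFun h 1
    simp only [he, Matrix.cons_val_zero, Matrix.cons_val_one, Matrix.cons_val_fin_one, sub_right_inj,
      add_right_inj] at h0 h1
    exact Prod.ext (mul_right_cancel₀ hl0 h0) (mul_right_cancel₀ hl0 h1)
  have hind : ∀ p, ind l v (e p) = 1 := fun p => if_pos ⟨by simp [he, ha], by simp [he, hb]⟩
  have hout : ∀ u, u ∉ Set.range e → ind l v u * eisSummand 3 u τ = 0 := by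
    intro u hu
    rw [ind, if_neg, zero_mul]
    rintro ⟨h0, h1⟩
    obtain ⟨m, hm⟩ := (ZMod.intCast_eq_intCast_iff_dvd_sub (u 0) a l).1 (h0.trans ha.symm)
    obtain ⟨n, hn⟩ := (ZMod.intCast_eq_intCast_iff_dvd_sub b (u 1) l).1 (hb.trans h1.symm)
    refine hu ⟨(m, n), funext fun i => ?_⟩
    fin_cases i <;> simp [he]
    · linear_combination hm
    · linear_combination -hn
  have h := ((hinj.hasSum_iff hout).2 (summable_latSum3 (norm_ind l v) τ).hasSum).mul_left
    (2 * (l : ℂ) ^ 3 / (-2 * Real.pi * I) ^ 3)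
  refine h.prod_fiberwise fun m => ?_
  set w : ℂ := ((a : ℂ) * τ + b) / l - m * τ
  have hlC : (l : ℂ) ≠ 0 := Nat.cast_ne_zero.mpr (NeZero.ne l)
  have hw : ∀ n : ℤ, w ≠ n := fun n hn => by
    refine point_not_mem (a := a) (b := b) (by rw [ha, hb]; exact exists_ne hv) τ
      (mem_perPair_lattice.mpr ⟨m, n, ?_⟩)
    linear_combination -hn
  have h1 := (hasSum_row3 hw).mul_left ((l : ℂ) ^ 3 * (2 / (-2 * Real.pi * I) ^ 3) / (l : ℂ) ^ 3 * 1)
  have hpi : (-2 * Real.pi * I : ℂ) ≠ 0 := by simp [Real.pi_ne_zero, I_ne_zero]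
  convert h1 using 1
  · funext n
    simp only [Function.comp_apply, hind, one_mul]
    simp only [eisSummand, he, Matrix.cons_val_zero, Matrix.cons_val_one, Matrix.cons_val_fin_one,
      zpow_neg]
    rw [show (3 : ℤ) = ((3 : ℕ) : ℤ) from rfl, zpow_natCast]
    have e1 : ((a - m * l : ℤ) : ℂ) * τ + ((b + n * l : ℤ) : ℂ) = (l : ℂ) * (w + n) := by
      simp only [w]
      push_cast
      field_simp
      ring
    push_cast at e1 ⊢
    rw [e1, mul_pow]
    field_simp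
  · rw [← exp_point, show ((a : ℂ) * τ + b) / l - m * τ = w from rfl]
    field_simp

theorem exists_small (x : ZMod l) : ∃ (a : ℕ) (ε : ℤ), (ε = 1 ∨ ε = -1) ∧ 2 * a ≤ l ∧
    ((ε * a : ℤ) : ZMod l) = x := by
  refine ⟨x.valMinAbs.natAbs, if 0 ≤ x.valMinAbs then 1 else -1, by split_ifs <;> simp, ?_, ?_⟩
  · have := ZMod.natAbs_valMinAbs_le x
    omega
  · conv_rhs => rw [← ZMod.coe_valMinAbs x]
    congr 1
    split_ifs with h <;> omega

/-- Representatives of a point with small first coordinate. -/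
theorem exists_rep (v : Fin 2 → ZMod l) : ∃ (a : ℕ) (b : ℤ), 2 * a ≤ l ∧
    (((a : ℤ) : ZMod l) = v 0 ∧ (b : ZMod l) = v 1 ∨
      ((a : ℤ) : ZMod l) = -v 0 ∧ (b : ZMod l) = -v 1) ∧
    ∀ τ, wval l v τ = wv l (a : ℤ) b τ := by
  obtain ⟨a, ε, hε, h2, hx⟩ := exists_small (v 0)
  refine ⟨a, ε * (v 1).val, h2, ?_, fun τ => ?_⟩
  · rcases hε with rfl | rfl
    · exact Or.inl ⟨by simpa using hx, by simp⟩
    · exact Or.inr ⟨by rw [← hx]; simp, by simp⟩
  · rw [wval_eq (a := ε * a) (b := ((v 1).val : ℤ)) hx (by simp)]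
    rcases hε with rfl | rfl
    · simp
    · rw [← wv_neg]
      congr 1 <;> ring

/-- The decay of the torsion sum. -/
theorem norm_num_le {v : Fin 2 → ZMod l} (hv : v ≠ 0) {a : ℕ} (ha : 2 * a < l) (ha0 : 0 < a)
    {A B : ℤ} (hA : A.natAbs = a) (hA' : (A : ZMod l) = v 0) (hB : (B : ZMod l) = v 1) :
    ∀ᶠ τ in atImInfty, ‖num l v τ‖ ≤ 16 * (2 * 2) * ‖qp l τ‖ ^ a := by
  have hsmall : ∀ᶠ τ in atImInfty, ‖qp l τ‖ ≤ 1 / 2 :=
    (tendsto_norm_zero.comp (qp_tendsto l)).eventually (ge_mem_nhds (by norm_num))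
  filter_upwards [hsmall] with τ hτ
  set r := ‖qp l τ‖
  have hr0 : 0 ≤ r := norm_nonneg _
  have hex : ∀ m : ℤ, a + m.natAbs ≤ (A - m * l).natAbs := fun m => by
    rcases eq_or_ne m 0 with rfl | hm
    · simp [hA]
    have h1 : (m * (l : ℤ)).natAbs = m.natAbs * l := by rw [Int.natAbs_mul]; simp
    have h2 : (m * (l : ℤ)).natAbs ≤ (A - m * l).natAbs + a := by omega
    have h3 : 0 < m.natAbs := Int.natAbs_pos.2 hm
    have h4 : m.natAbs * (2 * a + 1) ≤ m.natAbs * l := Nat.mul_le_mul_left _ ha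
    have h5 : 2 * a ≤ m.natAbs * (2 * a) := Nat.le_mul_of_pos_left _ h3
    rw [Nat.mul_add, Nat.mul_one] at h4
    omega
  have hgeo : HasSum (fun m : ℤ => r ^ m.natAbs) ((1 - r)⁻¹ + (1 - r)⁻¹ - 1) := by
    have h := hasSum_geometric_of_lt_one hr0 (hτ.trans_lt (by norm_num))
    have h' : HasSum (fun k : ℕ => r ^ ((k : ℤ)).natAbs) (1 - r)⁻¹ := by simpa using h
    have h'' : HasSum (fun k : ℕ => r ^ (-((k : ℤ) + 1)).natAbs) ((1 - r)⁻¹ - 1) := by
      have := (hasSum_nat_add_iff' 1).2 h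
      simp only [Finset.range_one, Finset.sum_singleton, pow_zero] at this
      refine this.congr_fun fun k => ?_
      congr 1
    have := HasSum.of_nat_of_neg_add_one (f := fun m : ℤ => r ^ m.natAbs) h' h''
    rwa [← add_sub_assoc] at this
  have hterm : ∀ m : ℤ, ‖u3 (((zetaN l ^ B : ℂˣ) : ℂ) * qp l τ ^ (A - m * l))‖ ≤
      16 * r ^ a * r ^ m.natAbs := by
    intro m
    set E := A - m * l
    have hE := hex m
    have hw1 : ‖((zetaN l ^ B : ℂˣ) : ℂ)‖ = 1 := by
      rw [Units.val_zpow_eq_zpow_val, norm_zpow, Complex.norm_eq_one_of_pow_eq_one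
        (by simpa using congrArg Units.val (zetaN_primitive (N := l)).pow_eq_one) (NeZero.ne l),
        one_zpow]
    have hpow : r ^ E.natAbs ≤ r ^ a * r ^ m.natAbs := by
      rw [← pow_add]
      exact pow_le_pow_of_le_one hr0 (hτ.trans (by norm_num)) hE
    have hle : r ^ E.natAbs ≤ 1 / 2 :=
      (pow_le_of_le_one hr0 (hτ.trans (by norm_num)) (by omega)).trans hτ
    rw [mul_assoc]
    refine le_trans ?_ (mul_le_mul_of_nonneg_left hpow (by norm_num))
    rcases le_or_gt 0 E with hpos | hneg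
    · have hn : ‖((zetaN l ^ B : ℂˣ) : ℂ) * qp l τ ^ E‖ = r ^ E.natAbs := by
        rw [norm_mul, hw1, one_mul, norm_zpow]
        conv_lhs => rw [show E = (E.natAbs : ℤ) by omega, zpow_natCast]
      exact (norm_u3_le (hn ▸ hle)).trans_eq (by rw [hn])
    · have hn : ‖(((zetaN l ^ B : ℂˣ) : ℂ) * qp l τ ^ E)⁻¹‖ = r ^ E.natAbs := by
        rw [norm_inv, norm_mul, hw1, one_mul, norm_zpow, ← zpow_neg]
        conv_lhs => rw [show -E = (E.natAbs : ℤ) by omega, zpow_natCast]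
      rw [← inv_inv (((zetaN l ^ B : ℂˣ) : ℂ) * qp l τ ^ E), u3_inv, norm_neg]
      exact (norm_u3_le (hn ▸ hle)).trans_eq (by rw [hn])
  rw [← (hasSum_num hv hA' hB τ).tsum_eq]
  refine (tsum_of_norm_bounded (hgeo.mul_left (16 * r ^ a)) hterm).trans ?_
  have h1r : (1 - r)⁻¹ ≤ 2 := by
    rw [inv_le_comm₀ (by linarith) (by norm_num)]
    linarith
  have : (1 - r)⁻¹ + (1 - r)⁻¹ - 1 ≤ 2 * 2 := by linarith
  calc 16 * r ^ a * ((1 - r)⁻¹ + (1 - r)⁻¹ - 1) ≤ 16 * r ^ a * (2 * 2) :=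
        mul_le_mul_of_nonneg_left this (by positivity)
    _ = _ := by ring

variable [Fact l.Prime] (hl : 5 ≤ l)

include hl in
/-- The weight one quotient is bounded at infinity. -/
theorem bdd_quo {v : Fin 2 → ZMod l} (hv : v ≠ 0) : IsBoundedAtImInfty (quo l v) := by
  have hodd : ∀ x : ℕ, 2 * x ≠ l := fun x h => by
    rcases (Fact.out : l.Prime).eq_two_or_odd with h' | h' <;> omega
  obtain ⟨h2ne, hne1, hne2⟩ := double_ne hl hv
  obtain ⟨a, b, ha, hab, hw⟩ := exists_rep v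
  obtain ⟨a', b', ha', hab', hw'⟩ := exists_rep (v + v)
  -- the leading term of the denominator
  have hz : (zetaN l : ℂˣ) ^ l = 1 := zetaN_primitive.pow_eq_one
  have hu : ∀ i : ℤ, ¬ (l : ℤ) ∣ i → IsUnit (1 - ((zetaN l ^ i : ℂˣ) : ℂ)) := fun i hi => by
    refine isUnit_iff_ne_zero.2 (sub_ne_zero.2 fun h => hi ?_)
    exact (zetaN_primitive.zpow_eq_one_iff_dvd i).1 (Units.ext h.symm)
  have hnz : ∀ {x : ℕ} {y : ℤ} {w : Fin 2 → ZMod l}, w ≠ 0 →
      (((x : ℤ) : ZMod l) = w 0 ∧ (y : ZMod l) = w 1 ∨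
        ((x : ℤ) : ZMod l) = -w 0 ∧ (y : ZMod l) = -w 1) →
      x ≠ 0 ∨ ¬ (l : ℤ) ∣ y := by
    intro x y w hw0 h
    by_contra hcon
    push Not at hcon
    obtain ⟨rfl, hy⟩ := hcon
    have hy' : (y : ZMod l) = 0 := (ZMod.intCast_zmod_eq_zero_iff_dvd y l).2 hy
    refine hw0 (funext fun i => ?_)
    rcases h with ⟨e0, e1⟩ | ⟨e0, e1⟩ <;> rw [hy'] at e1 <;> simp at e0 e1 <;> fin_cases i <;>
      simp_all
  have hne : a ≠ a' ∨ ¬ (l : ℤ) ∣ b - b' ∧ ((a ≠ 0 ∧ 2 * a ≠ l) ∨ ¬ (l : ℤ) ∣ b + b') := by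
    by_cases haa : a = a'
    · subst haa
      have key : v 0 = 0 := by
        rcases hab with ⟨e0, -⟩ | ⟨e0, -⟩ <;> rcases hab' with ⟨f0, -⟩ | ⟨f0, -⟩ <;>
          simp only [Pi.add_apply] at f0 <;> rw [e0] at f0
        · linear_combination -f0
        · have : (3 : ZMod l) * v 0 = 0 := by linear_combination f0
          exact (mul_eq_zero.1 this).resolve_left
            (by exact_mod_cast natCast_ne hl (j := 3) (by norm_num) (by norm_num))
        · have : (3 : ZMod l) * v 0 = 0 := by linear_combination -f0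
          exact (mul_eq_zero.1 this).resolve_left
            (by exact_mod_cast natCast_ne hl (j := 3) (by norm_num) (by norm_num))
        · linear_combination f0
      have hv1 : v 1 ≠ 0 := fun h => hv (funext fun i => by fin_cases i <;> [exact key; exact h])
      refine Or.inr ⟨fun h => hv1 ?_, Or.inr fun h => hv1 ?_⟩ <;>
        rw [← ZMod.intCast_zmod_eq_zero_iff_dvd] at h <;> push_cast at h <;>
        rcases hab with ⟨-, e⟩ | ⟨-, e⟩ <;> rcases hab' with ⟨-, f⟩ | ⟨-, f⟩ <;>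
        simp only [Pi.add_apply] at f <;> rw [e, f] at h <;>
        first
          | linear_combination h
          | linear_combination -h
          | exact (mul_eq_zero.1 (show (3 : ZMod l) * v 1 = 0 by linear_combination h)).resolve_left
              (by exact_mod_cast natCast_ne hl (j := 3) (by norm_num) (by norm_num))
          | exact (mul_eq_zero.1 (show (3 : ZMod l) * v 1 = 0 by linear_combination -h)).resolve_left
              (by exact_mod_cast natCast_ne hl (j := 3) (by norm_num) (by norm_num))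
    · exact Or.inl haa
  obtain ⟨n, hn, hlow, hlead⟩ := exists_unit_coeff (ζ := zetaN l) hz hu ha ha' (hnz hv hab)
    (hnz h2ne hab') hne
  set G := wser l (a : ℤ) (zetaN l ^ b) - wser l (a' : ℤ) (zetaN l ^ b') with hG
  have hpa : ((a : ℤ) : ZMod l) ≠ 0 ∨ (b : ZMod l) ≠ 0 := by
    rcases hab with ⟨e0, e1⟩ | ⟨e0, e1⟩ <;> rw [e0, e1] <;>
      simpa only [ne_eq, neg_eq_zero] using exists_ne hv
  have hpa' : ((a' : ℤ) : ZMod l) ≠ 0 ∨ (b' : ZMod l) ≠ 0 := by
    rcases hab' with ⟨e0, e1⟩ | ⟨e0, e1⟩ <;> rw [e0, e1] <;>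
      simpa only [ne_eq, neg_eq_zero] using exists_ne h2ne
  have hden : HasExp l (den l v) (HahnSeries.ofPowerSeries ℤ ℂ G) :=
    (hasExp_wv_sub hpa hpa').congr (Eventually.of_forall fun τ => by simp only [den, hw, hw'])
  have hsh := hden.mul_single (-(n : ℤ))
  have hge : GeOrd (HahnSeries.single (-(n : ℤ)) (1 : ℂ) * HahnSeries.ofPowerSeries ℤ ℂ G) 0 := by
    intro k hk
    rw [HahnSeries.coeff_single_mul, one_mul]
    rcases lt_or_ge (k - -(n : ℤ)) 0 with h | h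
    · exact ofPowerSeries_coeff_of_neg G h
    · obtain ⟨i, hi⟩ := Int.eq_ofNat_of_zero_le h
      rw [hi, HahnSeries.ofPowerSeries_apply_coeff, hlow i (by omega)]
  have htend := hsh.tendsto hge
  rw [HahnSeries.coeff_single_mul, one_mul, sub_neg_eq_add, zero_add,
    HahnSeries.ofPowerSeries_apply_coeff] at htend
  set c := PowerSeries.coeff n G
  have hc : 0 < ‖c‖ := norm_pos_iff.2 hlead.ne_zero
  have hev1 : ∀ᶠ τ in atImInfty, ‖c‖ / 2 * ‖qp l τ‖ ^ n ≤ ‖den l v τ‖ := by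
    filter_upwards [htend.norm.eventually (lt_mem_nhds (half_lt_self hc))] with τ hτ
    have hq := norm_pos_iff.2 (qp_ne_zero l τ)
    rw [norm_mul, norm_zpow, zpow_neg, zpow_natCast, ← div_eq_inv_mul, lt_div_iff₀ (pow_pos hq n)] at hτ
    exact hτ.le
  -- the numerator
  have hev2 : ∃ C : ℝ, ∀ᶠ τ in atImInfty, ‖num l v τ‖ ≤ C * ‖qp l τ‖ ^ a := by
    rcases Nat.eq_zero_or_pos a with rfl | ha0
    · obtain ⟨C, A, hC⟩ := UpperHalfPlane.isBoundedAtImInfty_iff.1
        ((bdd_latSum3 (norm_ind l v)).smul (2 * (l : ℂ) ^ 3 / (-2 * Real.pi * I) ^ 3))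
      refine ⟨C, (atImInfty_mem _).2 ⟨A, fun τ hτ => ?_⟩⟩
      simpa [num] using hC τ hτ
    · refine ⟨16 * (2 * 2), ?_⟩
      obtain ⟨A, B, hA, hB⟩ : ∃ A B : ℤ, A.natAbs = a ∧
          ((A : ZMod l) = v 0 ∧ (B : ZMod l) = v 1) := by
        rcases hab with ⟨e0, e1⟩ | ⟨e0, e1⟩
        · exact ⟨a, b, by simp, e0, e1⟩
        · exact ⟨-a, -b, by simp, by push_cast at e0 ⊢; linear_combination -e0,
            by push_cast; linear_combination -e1⟩
      exact norm_num_le hv (Nat.lt_of_le_of_ne ha (hodd a)) ha0 hA hB.1 hB.2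
  obtain ⟨C, hC⟩ := hev2
  refine Asymptotics.IsBigO.of_bound (|C| / (‖c‖ / 2)) ?_
  filter_upwards [hev1, hC, (tendsto_norm_zero.comp (qp_tendsto l)).eventually (ge_mem_nhds zero_lt_one)]
    with τ h1 h2 h3
  have hq := norm_pos_iff.2 (qp_ne_zero l τ)
  simp only [Pi.one_apply, norm_one, mul_one, quo, norm_div]
  rw [div_le_div_iff₀ (norm_pos_iff.2 (den_ne hl hv τ)) (by positivity)]
  calc ‖num l v τ‖ * (‖c‖ / 2) ≤ |C| * ‖qp l τ‖ ^ a * (‖c‖ / 2) :=
        mul_le_mul_of_nonneg_right (h2.trans (mul_le_mul_of_nonneg_right (le_abs_self C) (by positivity)))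
          (by positivity)
    _ ≤ |C| * ‖qp l τ‖ ^ n * (‖c‖ / 2) := mul_le_mul_of_nonneg_right (mul_le_mul_of_nonneg_left
        (pow_le_pow_of_le_one hq.le h3 (hn ▸ min_le_left a a')) (abs_nonneg C)) (by positivity)
    _ = |C| * (‖c‖ / 2 * ‖qp l τ‖ ^ n) := by ring
    _ ≤ |C| * ‖den l v τ‖ := mul_le_mul_of_nonneg_left h1 (abs_nonneg C)

end FLTAgent.DeligneSerre.Congr
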