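import Fermat.Agent.DeligneSerre.OddEis
import Fermat.Agent.GoodModel.TorsionSeries

/-!
# Rows of lattice sums of weight three and their regrouping by exponents
-/

set_option autoImplicit false

noncomputable section

open UpperHalfPlane hiding I I_re I_im
open Filter Topology Complex Function FLTAgent.GoodModel
open scoped MatrixGroups

namespace FLTAgent.DeligneSerre.Congr

/-- `u(1+u)/(1-u)³`. -/
def u3 (u : ℂ) : ℂ := u * (1 + u) / (1 - u) ^ 3

lemma u3_inv (u : ℂ) : u3 u⁻¹ = -u3 u := by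
  rcases eq_or_ne u 0 with rfl | hu
  · simp [u3]
  rcases eq_or_ne u 1 with rfl | hu1
  · simp [u3]
  simp only [u3]
  have : (1 : ℂ) - u⁻¹ ≠ 0 := sub_ne_zero.mpr fun e ↦ hu1 (inv_eq_one.mp e.symm)
  have : (1 : ℂ) - u ≠ 0 := sub_ne_zero.mpr hu1.symm
  field_simp
  ring

lemma norm_u3_le {u : ℂ} (hu : ‖u‖ ≤ 1 / 2) : ‖u3 u‖ ≤ 16 * ‖u‖ := by
  have h1 : (1 / 2 : ℝ) ≤ ‖1 - u‖ := by
    have := norm_sub_norm_le (1 : ℂ) u
    rw [norm_one] at this
    linarith
  have h2 : ‖1 + u‖ ≤ 2 := (norm_add_le _ _).trans (by rw [norm_one]; linarith)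
  have h3 : (1 / 2 : ℝ) ^ 3 ≤ ‖1 - u‖ ^ 3 := pow_le_pow_left₀ (by norm_num) h1 3
  rw [u3, norm_div, norm_mul, norm_pow, div_le_iff₀ (by linarith [h3])]
  calc ‖u‖ * ‖1 + u‖ ≤ ‖u‖ * 2 := mul_le_mul_of_nonneg_left h2 (norm_nonneg _)
    _ = 16 * ‖u‖ * (1 / 2) ^ 3 := by ring
    _ ≤ _ := mul_le_mul_of_nonneg_left h3 (by positivity)

/-- `∑ r² u^r`. -/
theorem hasSum_sq_geometric {u : ℂ} (hu : ‖u‖ < 1) :
    HasSum (fun r : ℕ ↦ (r : ℂ) ^ 2 * u ^ r) (u3 u) := by
  have h := (((hasSum_choose_mul_geometric_of_norm_lt_one 2 hu).mul_left 2).sub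
    ((hasSum_choose_mul_geometric_of_norm_lt_one 1 hu).mul_left 3)).add
    (hasSum_choose_mul_geometric_of_norm_lt_one 0 hu)
  have hne : (1 : ℂ) - u ≠ 0 := sub_ne_zero.mpr fun e ↦ by rw [← e] at hu; simp at hu
  have e : u3 u = 2 * (1 / (1 - u) ^ (2 + 1)) - 3 * (1 / (1 - u) ^ (1 + 1)) + 1 / (1 - u) ^ (0 + 1) := by
    simp only [u3]
    field_simp
    ring
  rw [e]
  refine h.congr_fun fun r ↦ ?_
  simp only [Nat.cast_choose_two, Nat.choose_one_right, Nat.choose_zero_right, Nat.cast_add,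
    Nat.cast_one, Nat.cast_ofNat]
  ring

lemma hasSum_row3_of_im_pos {w : ℂ} (hw : 0 < w.im) :
    HasSum (fun n : ℤ ↦ 1 / (w + n) ^ 3)
      ((-2 * Real.pi * I) ^ 3 / 2 * u3 (exp (2 * Real.pi * I * w))) := by
  have hs : Summable fun n : ℤ ↦ 1 / (w + n) ^ 3 := by
    simpa [one_div, zpow_ofNat] using EisensteinSeries.linear_right_summable w 1 (k := 3) (by norm_num)
  have h := EisensteinSeries.qExpansion_identity (k := 2) one_le_two ⟨w, hw⟩
  have hq : ‖exp (2 * Real.pi * I * w)‖ < 1 := UpperHalfPlane.norm_exp_two_pi_I_lt_one ⟨w, hw⟩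
  simp only [show (2 + 1 : ℕ) = 3 from rfl, Nat.factorial_two] at h
  rw [(hasSum_sq_geometric hq).tsum_eq] at h
  convert hs.hasSum using 1
  rw [h]
  push_cast
  ring

/-- The sum of cubes over a row of the lattice. -/
theorem hasSum_row3 {w : ℂ} (hw : ∀ n : ℤ, w ≠ n) :
    HasSum (fun n : ℤ ↦ 1 / (w + n) ^ 3)
      ((-2 * Real.pi * I) ^ 3 / 2 * u3 (exp (2 * Real.pi * I * w))) := by
  rcases lt_trichotomy w.im 0 with h | h | h
  · have h1 := (hasSum_row3_of_im_pos (w := -w) (by simpa using h)).neg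
    rw [show 2 * (Real.pi : ℂ) * I * -w = -(2 * Real.pi * I * w) by ring, Complex.exp_neg, u3_inv,
      ← (Equiv.neg ℤ).hasSum_iff, mul_neg, neg_neg] at h1
    refine h1.congr_fun fun n ↦ ?_
    simp only [comp_apply, Equiv.neg_apply, Int.cast_neg]
    rw [show -w + -(n : ℂ) = -(w + n) by ring, Odd.neg_pow (by decide), div_neg, neg_neg]
  · have hs : Summable fun n : ℤ ↦ 1 / (w + n) ^ 3 := by
      simpa [one_div, zpow_ofNat] using EisensteinSeries.linear_right_summable w 1 (k := 3) (by norm_num)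
    have hε : ∀ k : ℕ, 0 < (w + ((1 / (k + 1 : ℝ) : ℝ) : ℂ) * I).im := fun k ↦ by
      rw [Complex.add_im, h, zero_add, Complex.mul_im, Complex.ofReal_re, Complex.ofReal_im]
      simp only [Complex.I_re, Complex.I_im, mul_one, mul_zero, add_zero]
      positivity
    have hlim : Tendsto (fun k : ℕ ↦ w + ((1 / (k + 1 : ℝ) : ℝ) : ℂ) * I) atTop (𝓝 w) := by
      have := ((Complex.continuous_ofReal.tendsto 0).comp
        tendsto_one_div_add_atTop_nhds_zero_nat).mul_const I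
      simpa using this.const_add w
    have hwn : ∀ n : ℤ, w + n ≠ 0 := fun n e ↦ hw (-n) (by push_cast; linear_combination e)
    have h1 := tendsto_tsum_of_dominated_convergence (𝓕 := atTop)
      (f := fun (k : ℕ) (n : ℤ) ↦ 1 / (w + ((1 / (k + 1 : ℝ) : ℝ) : ℂ) * I + n) ^ 3)
      (g := fun n : ℤ ↦ 1 / (w + n) ^ 3) (bound := fun n : ℤ ↦ ‖1 / (w + (n : ℂ)) ^ 3‖) hs.norm
      (fun n ↦ tendsto_const_nhds.div ((hlim.add_const _).pow 3) (pow_ne_zero _ (hwn n)))
      (Eventually.of_forall fun k n ↦ ?_)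
    · have hu : ContinuousAt (fun x : ℂ ↦ (-2 * Real.pi * I) ^ 3 / 2 *
          u3 (exp (2 * Real.pi * I * x))) w := by
        have hne : (1 : ℂ) - exp (2 * Real.pi * I * w) ≠ 0 :=
          sub_ne_zero.mpr (exp_ne_one_of_not_int hw).symm
        unfold u3
        exact continuousAt_const.mul ((by fun_prop : ContinuousAt (fun x : ℂ ↦
          exp (2 * Real.pi * I * x) * (1 + exp (2 * Real.pi * I * x))) w).div (by fun_prop)
            (pow_ne_zero 3 hne))
      have h2 := tendsto_nhds_unique h1 ((hu.tendsto.comp hlim).congr fun k ↦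
        ((hasSum_row3_of_im_pos (hε k)).tsum_eq).symm)
      exact h2 ▸ hs.hasSum
    · simp only [norm_div, norm_one, norm_pow]
      gcongr
      · exact pow_pos (norm_pos_iff.mpr (hwn n)) 3
      have hre : (w + n).re = (w + ((1 / (k + 1 : ℝ) : ℝ) : ℂ) * I + n).re := by simp
      calc ‖w + n‖ = |(w + n).re| := by
            rw [show w + n = (((w + n).re : ℝ) : ℂ) from Complex.ext rfl (by simp [h]),
              Complex.norm_real]
            simp
        _ ≤ _ := hre ▸ Complex.abs_re_le_norm _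
  · exact hasSum_row3_of_im_pos h

/-- A Lambert series regrouped by exponents. -/
theorem hasSum_lambert {q : ℂ} (hq : ‖q‖ < 1) {c : ℕ → ℂ} {C : ℝ}
    (hc : ∀ r, ‖c r‖ ≤ C * (r : ℝ) ^ 2) :
    Summable (fun x : ℕ+ × ℕ+ ↦ c x.2 * q ^ ((x.1 : ℕ) * x.2)) ∧
    HasSum (fun n : ℕ ↦ (∑ r ∈ n.divisors, c r) * q ^ n)
      (∑' x : ℕ+ × ℕ+, c x.2 * q ^ ((x.1 : ℕ) * x.2)) := by
  have hC : 0 ≤ C := by
    have := (norm_nonneg (c 1)).trans (hc 1)
    simpa using this
  have hF : Summable fun x : ℕ+ × ℕ+ ↦ c x.2 * q ^ ((x.1 : ℕ) * x.2) := by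
    rw [← sigmaAntidiagonalEquivProd.summable_iff]
    refine Summable.of_norm ((summable_sigma_of_nonneg fun _ => norm_nonneg _).mpr
      ⟨fun n => (hasSum_fintype _).summable, ?_⟩)
    refine Summable.of_nonneg_of_le (fun n => tsum_nonneg fun _ => norm_nonneg _) (fun n => ?_)
      (((summable_pow_mul_geometric_of_norm_lt_one 3 (show ‖(‖q‖ : ℝ)‖ < 1 by
        rwa [Real.norm_of_nonneg (norm_nonneg q)])).comp_injective PNat.coe_injective).mul_left C)
    rw [tsum_fintype]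
    refine (Finset.sum_le_card_nsmul _ _ (C * ((n : ℕ) : ℝ) ^ 2 * ‖q‖ ^ (n : ℕ)) fun x _ => ?_).trans ?_
    · obtain ⟨⟨a, b⟩, hab⟩ := x
      have hab' := (Nat.mem_divisorsAntidiagonal.mp hab).1
      simp only [Function.comp_apply, sigmaAntidiagonalEquivProd, divisorsAntidiagonalFactors,
        Equiv.coe_fn_mk, PNat.mk_coe, norm_mul, norm_pow, hab']
      refine mul_le_mul_of_nonneg_right ((hc b).trans (mul_le_mul_of_nonneg_left
        (pow_le_pow_left₀ (Nat.cast_nonneg _) (Nat.cast_le.mpr (Nat.le_of_dvd n.pos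
          (Dvd.intro_left a hab'))) 2) hC)) (by positivity)
    · rw [nsmul_eq_mul, Finset.card_univ, Fintype.card_coe, Function.comp_apply]
      rw [show C * (((n : ℕ) : ℝ) ^ 3 * ‖q‖ ^ (n : ℕ)) =
        (n : ℕ) * (C * ((n : ℕ) : ℝ) ^ 2 * ‖q‖ ^ (n : ℕ)) by ring]
      refine mul_le_mul_of_nonneg_right (Nat.cast_le.mpr ?_) (by positivity)
      rw [← Nat.map_div_right_divisors, Finset.card_map]
      exact Nat.card_divisors_le_self _
  refine ⟨hF, ?_⟩
  have hh := hF.hasSum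
  rw [← sigmaAntidiagonalEquivProd.hasSum_iff] at hh
  have hn := hh.sigma fun n => hasSum_fintype _
  refine (Function.Injective.hasSum_iff PNat.coe_injective fun n hn0 => ?_).mp
    (hn.congr_fun fun n => ?_)
  · have : n = 0 := by
      by_contra h
      exact hn0 ⟨⟨n, Nat.pos_of_ne_zero h⟩, rfl⟩
    simp [this]
  · simp only [Function.comp_apply]
    rw [← Nat.sum_divisorsAntidiagonal' (fun _ r => c r) (n := (n : ℕ)), Finset.sum_mul,
      ← Finset.sum_coe_sort]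
    refine Finset.sum_congr rfl fun x _ => ?_
    obtain ⟨⟨a, b⟩, hab⟩ := x
    have hab' := (Nat.mem_divisorsAntidiagonal.mp hab).1
    simp [sigmaAntidiagonalEquivProd, divisorsAntidiagonalFactors, hab']

/-- A sum over rows whose symmetric pairs are geometric series is a power series. -/
theorem hasSum_rows {q : ℂ} (hq : ‖q‖ < 1) {f : ℤ → ℂ} {s : ℂ} (hf : HasSum f s) {c : ℕ → ℂ}
    {C : ℝ} (hc : ∀ r, ‖c r‖ ≤ C * (r : ℝ) ^ 2)
    (hrow : ∀ m : ℕ+, HasSum (fun r : ℕ ↦ c r * q ^ ((m : ℕ) * r))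
      (f ((m : ℕ) : ℤ) + f (-((m : ℕ) : ℤ)))) :
    HasSum (fun n : ℕ ↦ (if n = 0 then f 0 else ∑ r ∈ n.divisors, c r) * q ^ n) s := by
  obtain ⟨hF, hL⟩ := hasSum_lambert hq hc
  have hc0 : c 0 = 0 := by
    have := hc 0
    simpa using this
  have hr : ∀ m : ℕ+, HasSum (fun r : ℕ+ ↦ c r * q ^ ((m : ℕ) * r))
      (f ((m : ℕ) : ℤ) + f (-((m : ℕ) : ℤ))) := fun m ↦
    (Function.Injective.hasSum_iff PNat.coe_injective fun r hr0 => by
      have : r = 0 := by
        by_contra h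
        exact hr0 ⟨⟨r, Nat.pos_of_ne_zero h⟩, rfl⟩
      simp [this, hc0]).mpr (hrow m)
  have h1 : HasSum (fun m : ℕ+ ↦ f ((m : ℕ) : ℤ) + f (-((m : ℕ) : ℤ)))
      (∑' x : ℕ+ × ℕ+, c x.2 * q ^ ((x.1 : ℕ) * x.2)) := hF.hasSum.prod_fiberwise hr
  have h2 := hf.nat_add_neg
  rw [← hasSum_nat_add_iff' 1] at h2
  simp only [Finset.range_one, Finset.sum_singleton, Nat.cast_zero, neg_zero] at h2
  have h3 : HasSum (fun m : ℕ+ ↦ f ((m : ℕ) : ℤ) + f (-((m : ℕ) : ℤ))) (s + f 0 - (f 0 + f 0)) := by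
    refine (Equiv.hasSum_iff Equiv.pnatEquivNat.symm).mp ?_
    exact h2.congr_fun fun n ↦ by simp [Function.comp_def]
  have hs : s = f 0 + ∑' x : ℕ+ × ℕ+, c x.2 * q ^ ((x.1 : ℕ) * x.2) := by
    rw [h1.unique h3]; ring
  rw [hs]
  refine ((hasSum_ite_eq 0 (f 0)).add hL).congr_fun fun n ↦ ?_
  rcases eq_or_ne n 0 with rfl | hn
  · simp
  · simp [hn]

end FLTAgent.DeligneSerre.Congr
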