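import Fermat.Agent.DeligneSerre.Congr.Prime
import Fermat.Agent.DeligneSerre.CongrInterface

/-!
# From weight one to weight two modulo a prime over `l`
-/

set_option autoImplicit false
set_option linter.style.haveILetI false
set_option linter.unusedSectionVars false

noncomputable section

open UpperHalfPlane hiding I I_re I_im
open Filter Topology Complex Function CongruenceSubgroup FLTAgent.GoodModel FLTAgent.ModEq
open scoped MatrixGroups ModularForm Manifold

namespace FLTAgent.DeligneSerre.Congr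

open ModularFormClass (qCoeff)

variable {l : ℕ} [NeZero l] [Fact l.Prime]

/-- The form of weight one. -/
def eis (χ : DirichletCharacter ℂ l) : ℍ → ℂ :=
  ∑ u : (ZMod l)ˣ, χ (u : ZMod l) • ((1 - (zetaN l : ℂ)) • quo l (vec (u : ZMod l)))

theorem act_ne {v : Fin 2 → ZMod l} (hv : v ≠ 0) (g : SL(2, ℤ)) : act l v g ≠ 0 := fun h => hv (by
  have hdet := congrArg (fun z : ℤ => (z : ZMod l)) (det_eq g)
  push_cast at hdet
  have h0 := congrFun h 0
  have h1 := congrFun h 1
  simp only [act, Matrix.cons_val_zero, Matrix.cons_val_one, Matrix.cons_val_fin_one, Pi.zero_apply]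
    at h0 h1
  funext i
  revert i
  rw [Fin.forall_fin_two]
  simp only [Pi.zero_apply]
  refine ⟨?_, ?_⟩
  · linear_combination ((g 1 1 : ℤ) : ZMod l) * h0 - ((g 1 0 : ℤ) : ZMod l) * h1 - v 0 * hdet
  · linear_combination ((g 0 0 : ℤ) : ZMod l) * h1 - ((g 0 1 : ℤ) : ZMod l) * h0 - v 1 * hdet)

theorem eis_slash (χ : DirichletCharacter ℂ l) (g : SL(2, ℤ)) :
    eis χ ∣[(1 : ℤ)] g =
      ∑ u : (ZMod l)ˣ, χ (u : ZMod l) • ((1 - (zetaN l : ℂ)) • quo l (act l (vec (u : ZMod l)) g)) := by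
  rw [eis, SlashAction.sum_slash]
  refine Finset.sum_congr rfl fun u _ => ?_
  rw [ModularForm.SL_smul_slash, ModularForm.SL_smul_slash, quo_slash]

/-- The character of the form. -/
theorem eis_slash_gamma0 (χ : DirichletCharacter ℂ l) {g : SL(2, ℤ)}
    (hg : ((g 1 0 : ℤ) : ZMod l) = 0) :
    eis χ ∣[(1 : ℤ)] g = χ⁻¹ ((g 1 1 : ℤ) : ZMod l) • eis χ := by
  have hu : IsUnit ((g 1 1 : ℤ) : ZMod l) := by
    refine IsUnit.of_mul_eq_one ((g 0 0 : ℤ) : ZMod l) ?_
    have hdet := congrArg (fun z : ℤ => (z : ZMod l)) (det_eq g)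
    push_cast at hdet
    rw [hg, mul_zero, sub_zero] at hdet
    rw [mul_comm]
    exact hdet
  obtain ⟨d, hd⟩ := hu
  rw [eis_slash, eis, Finset.smul_sum]
  refine (Finset.sum_congr rfl fun u _ => ?_).trans (Equiv.sum_comp (Equiv.mulRight d)
    fun u : (ZMod l)ˣ => χ⁻¹ ((g 1 1 : ℤ) : ZMod l) • (χ (u : ZMod l) •
      ((1 - (zetaN l : ℂ)) • quo l (vec (u : ZMod l)))))
  have e : act l (vec (u : ZMod l)) g = vec ((u : ZMod l) * (d : ZMod l)) := by
    funext i; fin_cases i <;> simp [act, vec, hg, hd]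
  rw [e, smul_smul (χ⁻¹ _)]
  simp only [Equiv.coe_mulRight, Units.val_mul, map_mul]
  congr 1
  rw [← hd, MulChar.inv_apply', ← Units.val_inv_eq_inv_val, mul_left_comm, ← map_mul χ,
    Units.inv_mul, map_one, mul_one]

theorem bdd_eis_slash (hl : 5 ≤ l) (χ : DirichletCharacter ℂ l) (g : SL(2, ℤ)) :
    IsBoundedAtImInfty (eis χ ∣[(1 : ℤ)] g) := by
  rw [eis_slash]
  refine Finset.sum_induction _ IsBoundedAtImInfty (fun _ _ h h' => h.add h') ?_ fun u _ => ?_
  · exact const_boundedAtFilter atImInfty (0 : ℂ)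
  · exact ((bdd_quo hl (act_ne (vec_ne u.ne_zero) g)).smul _).smul _

theorem mdiff_eis (hl : 5 ≤ l) (χ : DirichletCharacter ℂ l) : MDiff (eis χ) :=
  MDifferentiable.sum fun u _ => ((mdiff_quo hl (vec_ne u.ne_zero)).const_smul _).const_smul _

theorem isQSeries_eis (hl : 5 ≤ l) (χ : DirichletCharacter ℂ l) : IsQSeries (eis χ) where
  periodic := periodic_of_T fun τ => by
    have h := congrFun (eis_slash_gamma0 χ (g := ModularGroup.T) (by simp [ModularGroup.coe_T])) τ
    rw [ModularForm.SL_slash_apply, denom_T, one_zpow, mul_one] at h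
    simpa [ModularGroup.coe_T] using h
  holo := mdiff_eis hl χ
  bdd := by simpa using bdd_eis_slash hl χ 1

theorem exists_serEis (hl : 5 ≤ l) {R : Subring ℂ} (S : Setting l R) :
    letI := S.field
    ∃ T : PowerSeries S.O, qExpansion 1 (eis S.χ) = PowerSeries.map S.O.subtype T ∧
      PowerSeries.map S.φ T = PowerSeries.C (-(8 / 3) : S.k) := by
  letI := S.field
  haveI := S.char
  set c := ZMod.castHom (dvd_refl l) S.k
  have key : ∀ s : Finset (ZMod l)ˣ, ∃ T : PowerSeries S.O,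
      IsQSeries (∑ u ∈ s, S.χ (u : ZMod l) • ((1 - (zetaN l : ℂ)) • quo l (vec (u : ZMod l)))) ∧
      qExpansion 1 (∑ u ∈ s, S.χ (u : ZMod l) • ((1 - (zetaN l : ℂ)) • quo l (vec (u : ZMod l)))) =
        PowerSeries.map S.O.subtype T ∧
      PowerSeries.map S.φ T = PowerSeries.C ((s.card : S.k) * (8 / 3)) := by
    intro s
    induction s using Finset.induction_on with
    | empty =>
      refine ⟨0, ⟨fun z => rfl, mdifferentiable_const, const_boundedAtFilter atImInfty (0 : ℂ)⟩, ?_, ?_⟩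
      · rw [Finset.sum_empty, map_zero, UpperHalfPlane.qExpansion_zero]
      · simp
    | insert u s hu ih =>
      obtain ⟨T, hT1, hT2, hT3⟩ := ih
      obtain ⟨U, hU1, hU2, hU3⟩ := exists_serQuo S.O S.zeta_mem (u : ZMod l) hl u.ne_zero S.φ
      refine ⟨PowerSeries.C (⟨_, S.χ_mem u⟩ : S.O) * U + T, ?_, ?_, ?_⟩
      · rw [Finset.sum_insert hu]
        exact (hU1.smul _).add hT1
      · rw [Finset.sum_insert hu, qExpansion_add (hU1.smul _).analyticAt hT1.analyticAt,
          qExpansion_smul hU1.analyticAt, hU2, hT2, map_add, map_mul, PowerSeries.map_C,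
          PowerSeries.smul_eq_C_mul]
        rfl
      · rw [map_add, map_mul, PowerSeries.map_C, hU3, hT3, S.φχ, ← map_mul, ← map_add]
        congr 1
        rw [Finset.card_insert_of_notMem hu]
        have : (ZMod.castHom (dvd_refl l) S.k) (u : ZMod l) ≠ 0 := (map_ne_zero c).2 u.ne_zero
        push_cast
        field_simp
        ring
  obtain ⟨T, -, h2, h3⟩ := key Finset.univ
  refine ⟨T, h2, ?_⟩
  rw [h3, Finset.card_univ, ZMod.card_units, Nat.cast_sub (Fact.out : l.Prime).one_le,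
    CharP.cast_eq_zero]
  congr 1
  ring

end Congr

open ModularFormClass (qCoeff)

open Congr in
theorem targetCongrSystem : TargetCongrSystem := by
  intro N _ W R hR hRf hRε l hlp hl hlN a _
  haveI : Fact l.Prime := ⟨hlp⟩
  haveI : NeZero l := ⟨hlp.ne_zero⟩
  obtain ⟨S⟩ := nonempty_setting (l := l) R hR
  letI := S.field
  haveI := S.char
  set M := N * l * a
  have hNM : N ∣ M := ⟨l * a, mul_assoc N l a⟩
  have hlM : l ∣ M := ⟨N * a, by simp only [M]; ring⟩
  -- the series of the weight one form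
  set Sf : PowerSeries S.O := PowerSeries.mk fun n => ⟨_, S.le (hRf n)⟩
  have hSf : qExpansion 1 (⇑W.f : ℍ → ℂ) = PowerSeries.map S.O.subtype Sf := by
    ext n
    rw [PowerSeries.coeff_map]
    simp [Sf, qCoeff]
  obtain ⟨T, hT, hφT⟩ := exists_serEis hl S
  set c := ZMod.castHom (dvd_refl l) S.k
  set ν : ℕ := (-3 / 8 : ZMod l).val
  have h3 : (3 : ZMod l) ≠ 0 := by exact_mod_cast natCast_ne hl (j := 3) (by norm_num) (by norm_num)
  have h8 : (8 : ZMod l) ≠ 0 := fun h => by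
    have h2 : (2 : ZMod l) ≠ 0 := by exact_mod_cast natCast_ne hl (j := 2) (by norm_num) (by norm_num)
    exact pow_ne_zero 3 h2 (by rw [← h]; norm_num)
  have hν : (ν : S.k) * -(8 / 3) = 1 := by
    have h1 : ((ν : ℕ) : S.k) = c (-3 / 8) := by
      rw [← map_natCast c]; exact congrArg c (ZMod.natCast_zmod_val _)
    have h2 : (-(8 / 3) : S.k) = c (-(8 / 3)) := by simp [map_ofNat]
    rw [h1, h2, ← map_mul, show (-3 / 8 : ZMod l) * -(8 / 3) = 1 by field_simp, map_one]
  set G : PowerSeries S.O := PowerSeries.C (ν : S.O) * (Sf * T)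
  have hG : PowerSeries.map S.φ G = PowerSeries.map S.φ Sf := by
    rw [map_mul, map_mul, hφT, PowerSeries.map_C, map_natCast, mul_left_comm, ← map_mul, hν, map_one,
      mul_one]
  have hfq : IsQSeries (⇑W.f : ℍ → ℂ) := isQSeries_self W.f
  have heq := isQSeries_eis hl S.χ
  have hft : IsQSeries ((⇑W.f : ℍ → ℂ) * eis S.χ) :=
    { periodic := fun z => by
        have h1 := hfq.periodic z
        have h2 := heq.periodic z
        simp only [Function.comp_apply, Pi.mul_apply] at h1 h2 ⊢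
        rw [h1, h2]
      holo := hfq.holo.mul heq.holo
      bdd := hfq.bdd.mul heq.bdd }
  set F : ℍ → ℂ := (ν : ℂ) • ((⇑W.f : ℍ → ℂ) * eis S.χ)
  have hGF : qExpansion 1 F = PowerSeries.map S.O.subtype G := by
    rw [qExpansion_smul hft.analyticAt, qExpansion_mul hfq.analyticAt heq.analyticAt, hSf, hT,
      map_mul, map_mul, PowerSeries.map_C, map_natCast, PowerSeries.smul_eq_C_mul]
  set chr : DirichletCharacter ℂ M :=
    DirichletCharacter.changeLevel hNM W.ε * DirichletCharacter.changeLevel hlM S.χ⁻¹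
  have hchr : ∀ z : ℤ, IsUnit ((z : ℤ) : ZMod M) →
      chr (z : ZMod M) = W.ε (z : ZMod N) * S.χ⁻¹ (z : ZMod l) := by
    intro z hz
    rw [show chr = DirichletCharacter.changeLevel hNM W.ε * DirichletCharacter.changeLevel hlM S.χ⁻¹
      from rfl, MulChar.mul_apply, ← hz.unit_spec, DirichletCharacter.changeLevel_eq_cast_of_dvd,
      DirichletCharacter.changeLevel_eq_cast_of_dvd, hz.unit_spec, ZMod.cast_intCast hNM,
      ZMod.cast_intCast hlM]
  have hlow : ∀ {d : ℕ}, d ∣ M → ∀ γ : Gamma0 M, (((γ : SL(2, ℤ)) 1 0 : ℤ) : ZMod d) = 0 :=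
    fun hd γ => by
      rw [ZMod.intCast_zmod_eq_zero_iff_dvd]
      exact (Int.natCast_dvd_natCast.2 hd).trans
        ((ZMod.intCast_zmod_eq_zero_iff_dvd _ _).1 (Gamma0_mem.1 γ.2))
  have hslash : ∀ γ : Gamma0 M, F ∣[(2 : ℤ)] (γ : SL(2, ℤ)) =
      chr (((γ : SL(2, ℤ)) 1 1 : ℤ) : ZMod M) • F := by
    intro γ
    have hu : IsUnit ((((γ : SL(2, ℤ)) 1 1 : ℤ) : ZMod M)) := by
      refine IsUnit.of_mul_eq_one ((((γ : SL(2, ℤ)) 0 0 : ℤ) : ZMod M)) ?_
      have hdet := congrArg (fun z : ℤ => (z : ZMod M)) (det_eq (γ : SL(2, ℤ)))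
      push_cast at hdet
      rw [Gamma0_mem.1 γ.2, mul_zero, sub_zero] at hdet
      rw [mul_comm]
      exact hdet
    have hf := W.nebentypus ⟨(γ : SL(2, ℤ)), Gamma0_mem.2 (hlow hNM γ)⟩
    rw [show F = (ν : ℂ) • ((⇑W.f : ℍ → ℂ) * eis S.χ) from rfl, ModularForm.SL_smul_slash,
      show (2 : ℤ) = 1 + 1 from rfl, ModularForm.mul_slash_SL2, eis_slash_gamma0 S.χ (hlow hlM γ), hf,
      hchr _ hu, smul_comm]
    funext τ
    simp only [Pi.smul_apply, Pi.mul_apply, smul_eq_mul]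
    ring
  have hzero : ∀ g : SL(2, ℤ), IsZeroAtImInfty (F ∣[(2 : ℤ)] g) := fun g => by
    rw [show F = (ν : ℂ) • ((⇑W.f : ℍ → ℂ) * eis S.χ) from rfl, ModularForm.SL_smul_slash,
      show (2 : ℤ) = 1 + 1 from rfl, ModularForm.mul_slash_SL2]
    have h1 : IsZeroAtImInfty ((⇑W.f : ℍ → ℂ) ∣[(1 : ℤ)] g) := CuspFormClass.zero_at_infty_slash W.f g
    have h2 := ((Asymptotics.isLittleO_one_iff ℝ).2 h1).mul_isBigO (bdd_eis_slash hl S.χ g)
    simp only [Pi.one_apply, mul_one] at h2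
    have h3 := ((Asymptotics.isLittleO_one_iff ℝ).1 h2).const_mul (ν : ℂ)
    rw [mul_zero] at h3
    exact h3
  let g : CuspForm (Gamma1 M) 2 :=
    { toFun := F
      slash_action_eq' := by
        rintro _ ⟨γ, hγ, rfl⟩
        show F ∣[(2 : ℤ)] γ = F
        refine (hslash ⟨γ, Gamma1_in_Gamma0 M hγ⟩).trans ?_
        rw [((Gamma1_mem M γ).mp hγ).2.1, map_one, one_smul]
      holo' := (hfq.holo.mul heq.holo).const_smul _
      zero_at_cusps' := fun hc => by
        rw [Subgroup.IsArithmetic.isCusp_iff_isCusp_SL2Z] at hc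
        rw [OnePoint.isZeroAt_iff_forall_SL2Z hc]
        exact fun γ _ => hzero γ }
  have hcoef : ∀ n, qCoeff g n = ((PowerSeries.coeff n G : S.O) : ℂ) := fun n => by
    show (qExpansion 1 F).coeff n = _
    rw [hGF, PowerSeries.coeff_map]
    rfl
  have hcmem : ∀ n, qCoeff g n ∈ S.O := fun n => by rw [hcoef]; exact SetLike.coe_mem _
  have hφg : ∀ n, S.φ ⟨_, hcmem n⟩ = S.φ ⟨_, S.le (hRf n)⟩ := fun n => by
    rw [show (⟨_, hcmem n⟩ : S.O) = PowerSeries.coeff n G from Subtype.ext (hcoef n),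
      ← PowerSeries.coeff_map, hG, PowerSeries.coeff_map, PowerSeries.coeff_mk]
  have hinvmem : ∀ x : ZMod l, S.χ⁻¹ x ∈ S.O := fun x => by
    rw [MulChar.inv_apply']
    exact S.χ_mem _
  have hchrmem : ∀ x : ZMod M, chr x ∈ S.O := fun x => by
    obtain ⟨z, rfl⟩ := ZMod.intCast_surjective x
    by_cases hz : IsUnit ((z : ℤ) : ZMod M)
    · rw [hchr z hz]
      exact mul_mem (S.le (hRε _)) (hinvmem _)
    · rw [MulChar.map_nonunit _ hz]
      exact S.O.zero_mem
  have hdet : ∀ p : ℕ, p.Prime → ¬ p ∣ M →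
      (p : S.k) * S.φ ⟨_, hchrmem p⟩ = S.φ ⟨_, S.le (hRε p)⟩ := by
    intro p hp hpM
    have hu : IsUnit (((p : ℤ) : ZMod M)) := by
      rw [Int.cast_natCast]
      exact (ZMod.isUnit_iff_coprime _ _).2 (hp.coprime_iff_not_dvd.2 hpM)
    have hpl : (p : ZMod l) ≠ 0 := fun h => hpM
      (((Nat.prime_dvd_prime_iff_eq hlp hp).1 ((CharP.cast_eq_zero_iff (ZMod l) l p).1 h)) ▸ hlM)
    have h1 := hchr p hu
    simp only [Int.cast_natCast] at h1
    have h2 : (⟨_, hchrmem p⟩ : S.O) =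
        ⟨_, S.le (hRε p)⟩ * ⟨_, S.χ_mem (((Units.mk0 _ hpl)⁻¹ : (ZMod l)ˣ) : ZMod l)⟩ :=
      Subtype.ext (by rw [Subring.coe_mul]; exact h1.trans (by rw [MulChar.inv_apply']; rfl))
    rw [h2, map_mul, S.φχ, Units.val_inv_eq_inv_val, Units.val_mk0, map_inv₀,
      map_natCast (ZMod.castHom (dvd_refl l) S.k),
      mul_left_comm, mul_inv_cancel₀, mul_one]
    intro h
    exact hpl ((CharP.cast_eq_zero_iff (ZMod l) l p).2 ((CharP.cast_eq_zero_iff S.k l p).1 h))
  refine ⟨S.k, S.field, S.fin, S.char, S.φ.comp (Subring.inclusion S.le),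
    { O := S.O, φ := S.φ, g := g, chr := chr
      b := fun p => S.φ ⟨_, S.le (hRf p)⟩
      nebentypus := hslash, coeff_mem := hcmem, chr_mem := hchrmem
      one_coeff := by
        rw [hφg, show (⟨_, S.le (hRf 1)⟩ : S.O) = 1 from Subtype.ext W.one, map_one]
      recursion := fun p hp hpM n => by
        have h := W.recursion p hp (fun h => hpM (h.trans hNM)) n
        rw [hdet p hp hpM, hφg, hφg, hφg]
        by_cases hd : p ∣ n
        · rw [if_pos hd] at h ⊢
          rw [← map_mul, ← map_add, ← map_mul]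
          exact congrArg S.φ (Subtype.ext h)
        · rw [if_neg hd] at h ⊢
          rw [mul_zero, add_zero, ← map_mul]
          rw [mul_zero, add_zero] at h
          exact congrArg S.φ (Subtype.ext h) },
    fun p hp hpM => ⟨rfl, hdet p hp hpM⟩⟩

end FLTAgent.DeligneSerre
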